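import Fermat.Agent.LT.Setup.Contracts
import Fermat.Agent.LT.Whittaker.Lattice
import Mathlib.NumberTheory.NumberField.Cyclotomic.Embeddings

/-!
# The constants of `ℚ(ζ₃)` used by the restriction to the upper half plane

`eisDelta = (ζ - ζ²)⁻¹` spans the trace-zero line, `eisEta = -ζ (ζ - ζ²)` is integral and
`Tr (eisDelta * eisEta) = 1`.
-/

set_option autoImplicit false

noncomputable section

open NumberField
open NumberField (InfinitePlace)

namespace Fermat.Agent.LT.Asai

instance isCyclotomicExtension_eis : IsCyclotomicExtension {3} ℚ EisField :=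
  CyclotomicField.isCyclotomicExtension 3 ℚ

instance isTotallyComplex_eisField : IsTotallyComplex EisField :=
  IsCyclotomicExtension.Rat.isTotallyComplex (n := 3) EisField (by norm_num)

/-- `ζ₃` in `EisField`. -/
def eisZeta : EisField := IsCyclotomicExtension.zeta 3 ℚ EisField

/-- `eisZeta` is a primitive cube root of unity. -/
theorem eisZeta_spec : IsPrimitiveRoot eisZeta 3 := IsCyclotomicExtension.zeta_spec 3 ℚ EisField

/-- The equation of `eisZeta`. -/
theorem eisZeta_sq : eisZeta ^ 2 + eisZeta + 1 = 0 := by
  have h := eisZeta_spec.geom_sum_eq_zero (by norm_num)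
  simp [Finset.sum_range_succ] at h
  linear_combination h

/-- `eisZeta` is integral. -/
theorem isIntegral_eisZeta : IsIntegral ℤ eisZeta := eisZeta_spec.isIntegral (by norm_num)

/-- The Eisenstein field is quadratic over `ℚ`. -/
theorem finrank_eisField : Module.finrank ℚ EisField = 2 := by
  rw [IsCyclotomicExtension.finrank (n := 3) EisField
    (Polynomial.cyclotomic.irreducible_rat (by norm_num))]
  decide

open Classical in
theorem card_infinitePlace_eisField : Fintype.card (InfinitePlace EisField) = 1 := by
  have h := IsTotallyComplex.finrank EisField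
  rw [finrank_eisField] at h
  have : InfinitePlace.nrComplexPlaces EisField
      = Fintype.card (InfinitePlace EisField) :=
    Fintype.card_congr (Equiv.subtypeUnivEquiv fun w => IsTotallyComplex.isComplex w)
  omega

instance unique_infinitePlace_eisField : Unique (InfinitePlace EisField) :=
  (Fintype.card_eq_one_iff_nonempty_unique.mp card_infinitePlace_eisField).some

theorem trace_eq_two_re (x : EisField) :
    (Algebra.trace ℚ EisField x : ℝ) =
      2 * ((default : InfinitePlace EisField).embedding x).re := by
  rw [Whittaker.trace_eq_sum_places, Fintype.sum_unique]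

theorem re_embedding_eisZeta (w : InfinitePlace EisField) :
    (w.embedding eisZeta).re = -(1 / 2) := by
  have h := congrArg w.embedding eisZeta_sq
  simp only [map_add, map_pow, map_one, map_zero] at h
  set z := w.embedding eisZeta
  have h1 := congrArg Complex.re h
  have h2 := congrArg Complex.im h
  simp [pow_two] at h1 h2
  rcases mul_eq_zero.mp (show z.im * (2 * z.re + 1) = 0 by linarith) with h0 | h0
  · exfalso
    rw [h0] at h1
    nlinarith [sq_nonneg (2 * z.re + 1)]
  · linarith

/-- The trace of `eisZeta` is `-1`. -/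
theorem trace_eisZeta : Algebra.trace ℚ EisField eisZeta = -1 := by
  have h := trace_eq_two_re eisZeta
  rw [re_embedding_eisZeta] at h
  exact_mod_cast h.trans (by norm_num : (2 : ℝ) * -(1 / 2) = ((-1 : ℚ) : ℝ))

theorem trace_ratCast (q : ℚ) : Algebra.trace ℚ EisField (q : EisField) = 2 * q := by
  rw [← eq_ratCast (algebraMap ℚ EisField), Algebra.trace_algebraMap, finrank_eisField,
    nsmul_eq_mul, Nat.cast_ofNat]

/-- `ζ - ζ²`, a square root of `-3`. -/
def eisSqrt : EisField := 2 * eisZeta + 1

/-- `eisSqrt` is a square root of `-3`. -/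
theorem eisSqrt_sq : eisSqrt ^ 2 = -3 := by
  rw [eisSqrt]; linear_combination 4 * eisZeta_sq

/-- `eisSqrt` is nonzero. -/
theorem eisSqrt_ne_zero : eisSqrt ≠ 0 := fun h => by
  have := eisSqrt_sq
  rw [h] at this
  norm_num at this

theorem trace_eisSqrt : Algebra.trace ℚ EisField eisSqrt = 0 := by
  have h1 : Algebra.trace ℚ EisField (1 : EisField) = 2 := by
    simpa using trace_ratCast 1
  rw [eisSqrt, two_mul, map_add, map_add, trace_eisZeta, h1]
  norm_num

/-- The generator of the trace-zero line, `1 / √(-3)`. -/
def eisDelta : EisField := eisSqrt⁻¹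

/-- `eisDelta` is nonzero. -/
theorem eisDelta_ne_zero : eisDelta ≠ 0 := inv_ne_zero eisSqrt_ne_zero

/-- `eisDelta` is `-1/3` times `eisSqrt`. -/
theorem eisDelta_eq : eisDelta = ((-1 / 3 : ℚ) : EisField) * eisSqrt := by
  have h := eisSqrt_sq
  rw [eisDelta]
  push_cast
  field_simp [eisSqrt_ne_zero]
  linear_combination h

/-- The trace is `ℚ`-linear. -/
theorem trace_ratCast_mul (q : ℚ) (x : EisField) :
    Algebra.trace ℚ EisField ((q : EisField) * x) = q * Algebra.trace ℚ EisField x := by
  rw [← eq_ratCast (algebraMap ℚ EisField), ← Algebra.smul_def, map_smul, smul_eq_mul]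

/-- `eisDelta` has trace zero. -/
theorem trace_eisDelta : Algebra.trace ℚ EisField eisDelta = 0 := by
  rw [eisDelta_eq, trace_ratCast_mul, trace_eisSqrt, mul_zero]

/-- The trace-zero elements are the rational multiples of `eisDelta`. -/
theorem exists_ratCast_mul_of_trace_eq_zero {ξ : EisField}
    (h : Algebra.trace ℚ EisField ξ = 0) : ∃ q : ℚ, ξ = (q : EisField) * eisDelta := by
  have hlin : LinearIndependent ℚ ![(1 : EisField), eisSqrt] := by
    rw [LinearIndependent.pair_iff]
    intro s t hst
    rw [Algebra.smul_def, Algebra.smul_def, eq_ratCast, eq_ratCast, mul_one] at hst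
    have h1 := congrArg (Algebra.trace ℚ EisField) hst
    rw [map_add, trace_ratCast, trace_ratCast_mul, trace_eisSqrt, map_zero] at h1
    have hs : s = 0 := by linarith
    refine ⟨hs, ?_⟩
    rw [hs, Rat.cast_zero, zero_add, mul_eq_zero] at hst
    exact Rat.cast_eq_zero.mp (hst.resolve_right eisSqrt_ne_zero)
  have hspan := hlin.span_eq_top_of_card_eq_finrank (by simp [finrank_eisField])
  have hξ : ξ ∈ Submodule.span ℚ (Set.range ![(1 : EisField), eisSqrt]) := by
    rw [hspan]; exact Submodule.mem_top
  rw [Matrix.range_cons, Matrix.range_cons, Matrix.range_empty, Set.union_empty,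
    Set.singleton_union, Submodule.mem_span_pair] at hξ
  obtain ⟨a, b, rfl⟩ := hξ
  simp only [Algebra.smul_def, eq_ratCast, mul_one] at h ⊢
  rw [map_add, trace_ratCast, trace_ratCast_mul, trace_eisSqrt] at h
  refine ⟨-3 * b, ?_⟩
  rw [show a = 0 by linarith, eisDelta_eq]
  push_cast
  ring

/-- An integral element with `Tr (eisDelta * eisEta) = 1`. -/
def eisEta : EisField := -eisZeta * eisSqrt

/-- The product `eisDelta * eisEta` is `-eisZeta`. -/
theorem eisDelta_mul_eisEta : eisDelta * eisEta = -eisZeta := by
  rw [eisDelta, eisEta]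
  field_simp [eisSqrt_ne_zero]

/-- `eisEta` pairs to `1` with `eisDelta` under the trace. -/
theorem trace_eisDelta_mul_eisEta : Algebra.trace ℚ EisField (eisDelta * eisEta) = 1 := by
  rw [eisDelta_mul_eisEta, map_neg, trace_eisZeta, neg_neg]

/-- `eisEta` is integral. -/
theorem isIntegral_eisEta : IsIntegral ℤ eisEta := by
  have h1 : IsIntegral ℤ eisSqrt := by
    rw [eisSqrt, two_mul]
    exact (isIntegral_eisZeta.add isIntegral_eisZeta).add isIntegral_one
  exact isIntegral_eisZeta.neg.mul h1

end Fermat.Agent.LT.Asai

end
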