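import Fermat.Agent.LT.Asai.Restrict.ConstTerm
import Fermat.Agent.LT.Asai.Main

/-!
# A nonzero period of the restricted form

If the Dirichlet series of `asaiCoeff M lam` converges absolutely for `s > 1` and tends to infinity
at `1`, then the sum over the unit classes at one of the translates has a nonzero period over
`Γ₀((n₀ M)²) \ ℍ` (`exists_period_ne_zero`).
-/

set_option autoImplicit false

noncomputable section

open MeasureTheory CongruenceSubgroup NumberField Filter Fermat.Agent.LT.Places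
open scoped UpperHalfPlane MatrixGroups Modular Topology

namespace Fermat.Agent.LT.Asai

variable {U : Level EisField} {φ : Y U → ℂ} {lam : Ideal (𝓞 EisField) → ℂ} {N M n₀ : ℕ}
  {g : GLFin EisField}

/-- The sum over the unit classes at one translation. -/
def unitSum (φ : Y U → ℂ) (c : GLFin EisField ⧸ U.toSubgroup) (m j : ℕ) [NeZero (m ^ 2)]
    (τ : ℍ) : ℂ :=
  ∑ u : (ZMod (m ^ 2))ˣ, φ (planePt EisField τ, shiftCoset (m ^ 2) c u (shiftAt m j))

theorem classical_eq_sum_unitSum (c : GLFin EisField ⧸ U.toSubgroup) (m n₀ : ℕ) [NeZero (m ^ 2)] :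
    classical φ c m n₀ =
      fun τ => ∑ j ∈ Finset.range m, rootExp m (j * n₀) * unitSum φ c m j τ := by
  funext τ
  simp only [classical, unitSum, Finset.mul_sum]
  exact Finset.sum_comm

/-- The unit sum of a cusp eigenform is measurable. -/
theorem measurable_unitSum (hφ : Whittaker.IsCuspEigen φ) (c : GLFin EisField ⧸ U.toSubgroup)
    (m j : ℕ) [NeZero (m ^ 2)] : Measurable (unitSum φ c m j) :=
  (continuous_finsetSum _ fun _ _ => (hφ.continuous _).comp continuous_planePt).measurable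

/-- The sum over the unit classes is invariant under `Γ₀`. -/
theorem unitSum_invariant (hφ : IsAutomorphic φ) {c : GLFin EisField ⧸ U.toSubgroup} {m : ℕ}
    [NeZero (m ^ 2)] (hm : 0 < m) (hM : M ∣ m)
    (hfix : ∀ h : GLFin EisField, IsFixing M h → h • c = c) (j : ℕ) (γ : SL(2, ℤ))
    (hγ : γ ∈ Gamma0 (m ^ 2)) (τ : ℍ) : unitSum φ c m j (γ • τ) = unitSum φ c m j τ := by
  have hγ' := Subgroup.inv_mem _ hγ
  simp only [unitSum, phi_smul_planePt hφ,
    smul_shiftCoset hfix (isShift_shiftAt hm hM _) hγ']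
  exact Fintype.sum_equiv (Equiv.mulLeft (sqEntry (m ^ 2) γ⁻¹ hγ')) _ _ fun u => rfl

theorem integrableOn_slot {R : ℕ} [NeZero R] {Ψ : ℍ → ℂ} (hΨ : Measurable Ψ) {B : ℝ}
    (hB : ∀ τ, ‖Ψ τ‖ ≤ B) (r : ZMod R × ZMod R) :
    IntegrableOn (slot R Ψ r) (𝒟 : Set ℍ) := by
  have hfin : volume (𝒟 : Set ℍ) < ⊤ := Fermat.Agent.Petersson.volume_fd_lt_top
  refine IntegrableOn.of_bound hfin (measurable_slot hΨ r).aestronglyMeasurable B
    (ae_of_all _ fun τ => norm_slot_le ((norm_nonneg _).trans (hB τ)) (fun γ => hB _) r)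

/-- The period is linear in bounded functions. -/
theorem period_sum {R : ℕ} [NeZero R] {ι : Type*} (s : Finset ι) (k : ι → ℂ) (Ψ : ι → ℍ → ℂ)
    (hΨ : ∀ i ∈ s, Measurable (Ψ i)) (hB : ∀ i ∈ s, ∃ B : ℝ, ∀ τ, ‖Ψ i τ‖ ≤ B) :
    period R (fun τ => ∑ i ∈ s, k i * Ψ i τ) = ∑ i ∈ s, k i * period R (Ψ i) := by
  have hslot : ∀ r τ, slot R (fun τ => ∑ i ∈ s, k i * Ψ i τ) r τ =
      ∑ i ∈ s, k i * slot R (Ψ i) r τ := fun r τ => by
    unfold slot
    split_ifs <;> simp
  simp only [period, hslot]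
  rw [setIntegral_congr_fun (g := fun τ => ∑ i ∈ s, k i * ∑ r, slot R (Ψ i) r τ)
    ModularGroup.isClosed_fd.measurableSet fun τ _ => by
      rw [Finset.sum_comm]; simp only [Finset.mul_sum]]
  have hint : ∀ i ∈ s, Integrable (fun τ => k i * ∑ r, slot R (Ψ i) r τ)
      (volume.restrict (𝒟 : Set ℍ)) := fun i hi => by
    obtain ⟨B, hB⟩ := hB i hi
    exact Integrable.const_mul (integrable_finsetSum _ fun r _ =>
      integrableOn_slot (hΨ i hi) hB r) _
  rw [integral_finsetSum _ hint]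
  exact Finset.sum_congr rfl fun i _ => integral_const_mul _ _

/-- **A nonzero period.** Given absolute convergence and divergence at `1` of the series of
`asaiCoeff M lam`, the sum over the unit classes at some translation has a nonzero period. -/
theorem exists_period_ne_zero (H : RestrictHyp φ lam N M n₀ g) [NeZero ((n₀ * M) ^ 2)]
    (hsum : ∀ s : ℝ, 1 < s → Summable fun n => |dTerm (asaiCoeff M lam) s n|)
    (htop : Tendsto (dSum (asaiCoeff M lam)) (𝓝[>] 1) atTop) :
    ∃ j < n₀ * M, period ((n₀ * M) ^ 2)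
      (unitSum φ (g : GLFin EisField ⧸ U.toSubgroup) (n₀ * M) j) ≠ 0 := by
  set c := (g : GLFin EisField ⧸ U.toSubgroup)
  set m := n₀ * M
  have hm : 0 < m := Nat.mul_pos H.base_pos H.modulus_pos
  have hM : M ∣ m := dvd_mul_left M n₀
  obtain ⟨C, hC⟩ := exists_classical_decay (φ := φ) (c := c) (n₀ := n₀) H.cuspEigen hm hM H.fixed
  have ha : 0 < (n₀ : ℝ) * deltaAbs := mul_pos (Nat.cast_pos.mpr H.base_pos) deltaAbs_pos
  obtain ⟨w₀, hw₀, hlow⟩ := exists_moment_profile_lower ha
  have hc₀ : (2 * (m : ℂ) * (unitCount (m ^ 2) M : ℂ) *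
      Whittaker.coef φ c ((n₀ : EisField) * eisDelta)) ≠ 0 := by
    refine mul_ne_zero (mul_ne_zero (mul_ne_zero two_ne_zero (Nat.cast_ne_zero.mpr hm.ne')) ?_)
      H.coef_ne_zero
    exact Nat.cast_ne_zero.mpr (unitCount_pos (hM.trans (dvd_pow_self m two_ne_zero))).ne'
  have hP : period (m ^ 2) (classical φ c m n₀) ≠ 0 :=
    period_ne_zero (continuous_classical H.cuspEigen).measurable
      (fun γ hγ τ => classical_invariant H.cuspEigen.automorphic hm hM H.fixed γ hγ τ) hC
      (asaiCoeff_zero M lam) hsum htop (fun s hs _ => integrableOn_moment_profile ha hs) hw₀ hlow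
      hc₀ (fun y hy => constant_term H hy)
  obtain ⟨B, hB⟩ := H.cuspEigen.bounded
  rw [classical_eq_sum_unitSum, period_sum _ _ _ (fun j _ => measurable_unitSum H.cuspEigen c m j)
    (fun j _ => ⟨∑ _u : (ZMod (m ^ 2))ˣ, B, fun τ =>
      (norm_sum_le _ _).trans (Finset.sum_le_sum fun u _ => hB _)⟩)] at hP
  obtain ⟨j, hj, hne⟩ := Finset.exists_ne_zero_of_sum_ne_zero hP
  exact ⟨j, Finset.mem_range.mp hj, right_ne_zero_of_mul hne⟩

end Fermat.Agent.LT.Asai

end
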