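import Fermat.Agent.LT.Asai.Restrict.UnitClass
import Fermat.Agent.LT.Decay.Coef

/-!
# The classical function on `ℍ`: invariance and rapid decay

`classical φ c m n₀` averages the cusp form over the translates of the coset `c` on the real points
of hyperbolic space. It is `Γ₀(m²)`-invariant, and its translates by `SL₂(ℤ)` times `(Im τ) ^ 9`
are bounded on the fundamental domain.
-/

set_option autoImplicit false

noncomputable section

open CongruenceSubgroup
open scoped UpperHalfPlane MatrixGroups Modular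
open NumberField (InfinitePlace)

namespace Fermat.Agent.LT.Asai

variable {U : Level EisField}

/-- `∑_u ∑_j e (j n₀ / m) φ (·, dia û • unip (j η / m) • c)` on the real points. -/
def classical (φ : Y U → ℂ) (c : GLFin EisField ⧸ U.toSubgroup) (m n₀ : ℕ) [NeZero (m ^ 2)]
    (τ : ℍ) : ℂ :=
  ∑ u : (ZMod (m ^ 2))ˣ, ∑ j ∈ Finset.range m,
    rootExp m (j * n₀) * φ (planePt EisField τ, shiftCoset (m ^ 2) c u (shiftAt m j))

/-- The embedding of the upper half plane is continuous. -/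
theorem continuous_planePt : Continuous fun τ : ℍ => planePt EisField τ := by
  refine continuous_pi fun w => ?_
  show Continuous fun τ : ℍ => H3.pt ((τ.re : ℝ) : ℂ) τ.im
  refine continuous_induced_rng.mpr ?_
  have e : (H3.mat ∘ fun τ : ℍ => H3.pt ((τ.re : ℝ) : ℂ) τ.im) = fun τ : ℍ =>
      !![((Complex.normSq ((τ.re : ℝ) : ℂ) : ℂ) + ((τ.im : ℝ) : ℂ) ^ 2) / ((τ.im : ℝ) : ℂ),
        ((τ.re : ℝ) : ℂ) / ((τ.im : ℝ) : ℂ);
        (starRingEnd ℂ) ((τ.re : ℝ) : ℂ) / ((τ.im : ℝ) : ℂ), ((τ.im : ℝ) : ℂ)⁻¹] := funext fun τ =>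
    H3.mat_pt _ τ.im_pos
  rw [e]
  have him : Continuous fun τ : ℍ => ((τ.im : ℝ) : ℂ) :=
    Complex.continuous_ofReal.comp UpperHalfPlane.continuous_im
  have hre : Continuous fun τ : ℍ => ((τ.re : ℝ) : ℂ) :=
    Complex.continuous_ofReal.comp UpperHalfPlane.continuous_re
  have hne : ∀ τ : ℍ, ((τ.im : ℝ) : ℂ) ≠ 0 := fun τ => Complex.ofReal_ne_zero.mpr τ.im_pos.ne'
  refine continuous_matrix fun i j => ?_
  fin_cases i <;> fin_cases j
  · exact (((Complex.continuous_ofReal.comp (Complex.continuous_normSq.comp hre)).add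
      (him.pow 2)).div him hne)
  · exact hre.div him hne
  · exact (Complex.continuous_conj.comp hre).div him hne
  · exact him.inv₀ hne

variable {φ : Y U → ℂ} {c : GLFin EisField ⧸ U.toSubgroup} {m n₀ : ℕ} [NeZero (m ^ 2)]

/-- The classical function of a cusp eigenform is continuous. -/
theorem continuous_classical (hφ : Whittaker.IsCuspEigen φ) :
    Continuous (classical φ c m n₀) :=
  continuous_finsetSum _ fun _ _ => continuous_finsetSum _ fun _ _ =>
    continuous_const.mul ((hφ.continuous _).comp continuous_planePt)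

/-- An element of `SL₂(ℤ)` moves from the plane to the finite adelic component of `φ`. -/
theorem phi_smul_planePt (hφ : IsAutomorphic φ) (γ : SL(2, ℤ)) (τ : ℍ)
    (C : GLFin EisField ⧸ U.toSubgroup) :
    φ (planePt EisField (γ • τ), C) =
      φ (planePt EisField τ, glIncl EisField (slToGL EisField γ⁻¹) • C) := by
  rw [← hφ (slToGL EisField γ⁻¹) (planePt EisField (γ • τ), C), smul_planePt, inv_smul_smul]

/-- Invariance under `Γ₀(m²)`. -/
theorem classical_invariant (hφ : IsAutomorphic φ) {M : ℕ} (hm : 0 < m) (hM : M ∣ m)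
    (hfix : ∀ h : GLFin EisField, IsFixing M h → h • c = c) (γ : SL(2, ℤ))
    (hγ : γ ∈ Gamma0 (m ^ 2)) (τ : ℍ) :
    classical φ c m n₀ (γ • τ) = classical φ c m n₀ τ := by
  have hγ' := Subgroup.inv_mem _ hγ
  simp only [classical, phi_smul_planePt hφ,
    smul_shiftCoset hfix (isShift_shiftAt hm hM _) hγ']
  exact Fintype.sum_equiv (Equiv.mulLeft (sqEntry (m ^ 2) γ⁻¹ hγ')) _ _ fun u => rfl

/-- Rapid decay at all cusps. -/
theorem exists_classical_decay (hφ : Whittaker.IsCuspEigen φ) {M : ℕ} (hm : 0 < m) (hM : M ∣ m)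
    (hfix : ∀ h : GLFin EisField, IsFixing M h → h • c = c) :
    ∃ C : ℝ, ∀ γ : SL(2, ℤ), ∀ τ ∈ (𝒟 : Set ℍ),
      ‖classical φ c m n₀ (γ • τ)‖ * τ.im ^ 9 ≤ C := by
  classical
  have hpow : ∀ δ : ℝ, 0 < δ → ∀ y : ℝ, 0 ≤ y →
      y ^ 9 * Real.exp (-(δ * y)) ≤ (Nat.factorial 9 : ℝ) / δ ^ 9 := by
    intro δ hδ y hy
    have h := Real.pow_div_factorial_le_exp _ (mul_nonneg hδ.le hy) 9
    rw [div_le_iff₀ (by positivity), mul_pow] at h
    rw [le_div_iff₀ (pow_pos hδ 9), Real.exp_neg, mul_assoc, mul_comm (Real.exp _)⁻¹, ← mul_assoc,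
      ← div_eq_mul_inv, div_le_iff₀ (Real.exp_pos _)]
    linarith
  have hcoset : ∀ C : GLFin EisField ⧸ U.toSubgroup, ∃ B : ℝ, ∀ τ ∈ (𝒟 : Set ℍ),
      ‖φ (planePt EisField τ, C)‖ * τ.im ^ 9 ≤ B := by
    intro C
    obtain ⟨K, δ, hK, hδ, h⟩ := Decay.exists_norm_le_exp hφ C (b₀ := (1 : ℝ) / 2) (by norm_num)
    refine ⟨K * ((Nat.factorial 9 : ℝ) / δ ^ 9), fun τ hτ => ?_⟩
    have hy : (1 : ℝ) / 2 ≤ τ.im := by
      nlinarith [ModularGroup.three_le_four_mul_im_sq_of_mem_fd hτ, τ.im_pos]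
    refine (mul_le_mul_of_nonneg_right (h _ _ τ.im hy fun _ => le_rfl)
      (pow_nonneg τ.im_pos.le 9)).trans ?_
    rw [mul_assoc, mul_comm (Real.exp _)]
    exact mul_le_mul_of_nonneg_left (hpow δ hδ τ.im τ.im_pos.le) hK
  choose B hB using hcoset
  set bd : SL(2, ℤ) → ℝ := fun γ => ∑ u : (ZMod (m ^ 2))ˣ, ∑ j ∈ Finset.range m,
    ‖rootExp m (j * n₀)‖ *
      B (glIncl EisField (slToGL EisField γ⁻¹) • shiftCoset (m ^ 2) c u (shiftAt m j))
  have hb : ∀ γ : SL(2, ℤ), ∀ τ ∈ (𝒟 : Set ℍ),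
      ‖classical φ c m n₀ (γ • τ)‖ * τ.im ^ 9 ≤ bd γ := by
    intro γ τ hτ
    refine (mul_le_mul_of_nonneg_right
      ((norm_sum_le _ _).trans (Finset.sum_le_sum fun u _ => norm_sum_le _ _))
      (pow_nonneg τ.im_pos.le 9)).trans ?_
    rw [Finset.sum_mul]
    refine Finset.sum_le_sum fun u _ => ?_
    rw [Finset.sum_mul]
    refine Finset.sum_le_sum fun j _ => ?_
    rw [norm_mul, mul_assoc, phi_smul_planePt hφ.automorphic]
    exact mul_le_mul_of_nonneg_left (hB _ τ hτ) (norm_nonneg _)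
  have : Finite (SL(2, ℤ) ⧸ Gamma0 (m ^ 2)) := Subgroup.finite_quotient_of_finiteIndex
  have : Fintype (SL(2, ℤ) ⧸ Gamma0 (m ^ 2)) := Fintype.ofFinite _
  obtain ⟨C, hC⟩ := (Set.finite_range
    fun q : SL(2, ℤ) ⧸ Gamma0 (m ^ 2) => bd q.out⁻¹).bddAbove
  refine ⟨C, fun γ τ hτ => ?_⟩
  set r := (QuotientGroup.mk γ⁻¹ : SL(2, ℤ) ⧸ Gamma0 (m ^ 2)).out with hr
  have hmem : γ * r ∈ Gamma0 (m ^ 2) := by
    have := QuotientGroup.eq.mp
      (QuotientGroup.out_eq' (QuotientGroup.mk γ⁻¹ : SL(2, ℤ) ⧸ Gamma0 (m ^ 2))).symm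
    rwa [inv_inv, ← hr] at this
  rw [show γ • τ = (γ * r) • (r⁻¹ • τ) by rw [smul_smul, mul_inv_cancel_right],
    classical_invariant hφ.automorphic hm hM hfix _ hmem]
  exact (hb r⁻¹ τ hτ).trans (hC (Set.mem_range_self _))

end Fermat.Agent.LT.Asai

end
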