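import Fermat.Agent.LT.Asai.LocalFactor
import Fermat.Agent.LT.Setup.Contracts
import Fermat.Agent.LT.Places.HeckeSetup

/-!
# The coefficients of the restricted form

`asaiCoeff M lam n` is the product over the places `v` of the normalised Hecke eigenvalues at
`v ^ (ord_v n)` for `n` prime to `M`, and zero otherwise.
-/

set_option autoImplicit false

noncomputable section

open NumberField WithZero Fermat.Agent.LT.Places

namespace Fermat.Agent.LT.Asai

variable {F : Type*} [Field F] [NumberField F]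

/-- The normalised eigenvalue `lam v / √(N v)`. -/
def asaiEig (lam : Ideal (𝓞 F) → ℂ) (v : FinPlace F) : ℝ :=
  (lam v.asIdeal).re / Real.sqrt (Ideal.absNorm v.asIdeal)

/-- The exponent of `v` in a natural number. -/
def placeExp (v : FinPlace F) (n : ℕ) : ℕ := (-log (v.valuation F (n : F))).toNat

/-- The coefficient at `n`. -/
def asaiCoeff (M : ℕ) (lam : Ideal (𝓞 F) → ℂ) (n : ℕ) : ℝ :=
  if n ≠ 0 ∧ n.Coprime M then ∏ᶠ v : FinPlace F, heckeSeq (asaiEig lam v) (placeExp v n) else 0

/-- `placeExp v n` is the valuation exponent of `n` at `v`. -/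
theorem valuation_eq_exp_placeExp (v : FinPlace F) {n : ℕ} (hn : 0 < n) :
    v.valuation F (n : F) = exp (-(placeExp v n : ℤ)) := by
  have h0 := valuation_natCast_ne_zero v hn
  have h1 := valuation_natCast_le_one v n
  rw [← exp_log h0, ← exp_zero, exp_le_exp] at h1
  rw [placeExp, Int.toNat_of_nonneg (by omega), neg_neg, exp_log h0]

/-- The exponent is determined by the valuation. -/
theorem placeExp_eq (v : FinPlace F) {n : ℕ} (hn : 0 < n) {k : ℕ}
    (h : v.valuation F (n : F) = exp (-(k : ℤ))) : placeExp v n = k := by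
  have h' := (valuation_eq_exp_placeExp v hn).symm.trans h
  rw [exp_inj] at h'
  omega

theorem placeExp_one (v : FinPlace F) : placeExp v 1 = 0 :=
  placeExp_eq v one_pos (by simp)

theorem placeExp_mul (v : FinPlace F) {m n : ℕ} (hm : 0 < m) (hn : 0 < n) :
    placeExp v (m * n) = placeExp v m + placeExp v n := by
  refine placeExp_eq v (Nat.mul_pos hm hn) ?_
  rw [Nat.cast_mul, map_mul, valuation_eq_exp_placeExp v hm, valuation_eq_exp_placeExp v hn,
    ← exp_add, Nat.cast_add, neg_add]

/-- The exponent of `n` at `v` vanishes exactly when `v` does not divide `n`. -/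
theorem placeExp_eq_zero_iff (v : FinPlace F) {n : ℕ} (hn : 0 < n) :
    placeExp v n = 0 ↔ (n : 𝓞 F) ∉ v.asIdeal := by
  have h : v.valuation F (n : F) < 1 ↔ (n : 𝓞 F) ∈ v.asIdeal := by
    rw [← map_natCast (algebraMap (𝓞 F) F) n]
    exact v.valuation_lt_one_iff_mem _
  rw [← h, valuation_eq_exp_placeExp v hn, ← exp_zero, exp_lt_exp]
  omega

theorem placeExp_pow (v : FinPlace F) {p : ℕ} (hp : 0 < p) (k : ℕ) :
    placeExp v (p ^ k) = k * placeExp v p := by
  induction k with
  | zero => simp [placeExp_one]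
  | succ k ih => rw [pow_succ, placeExp_mul v (pow_pos hp k) hp, ih]; ring

/-- No place divides two coprime natural numbers. -/
theorem placeExp_coprime (v : FinPlace F) {m n : ℕ} (hm : 0 < m) (hn : 0 < n)
    (hmn : m.Coprime n) : placeExp v m = 0 ∨ placeExp v n = 0 := by
  by_contra! hc
  have hm' : (m : 𝓞 F) ∈ v.asIdeal := not_not.mp ((placeExp_eq_zero_iff v hm).not.mp hc.1)
  have hn' : (n : 𝓞 F) ∈ v.asIdeal := not_not.mp ((placeExp_eq_zero_iff v hn).not.mp hc.2)
  obtain ⟨a, b, hab⟩ := (Nat.isCoprime_iff_coprime.mpr hmn : IsCoprime (m : ℤ) (n : ℤ))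
  have h := congrArg (fun x : ℤ => (x : 𝓞 F)) hab
  simp only [Int.cast_add, Int.cast_mul, Int.cast_natCast, Int.cast_one] at h
  refine v.isPrime.ne_top ((Ideal.eq_top_iff_one _).mpr ?_)
  rw [← h]
  exact add_mem (Ideal.mul_mem_left _ _ hm') (Ideal.mul_mem_left _ _ hn')

/-- Only finitely many places divide a positive natural number. -/
theorem finite_placeExp {n : ℕ} (hn : 0 < n) : {v : FinPlace F | placeExp v n ≠ 0}.Finite :=
  (finite_natCast n hn).subset fun v hv h => hv (placeExp_eq v hn (by simp [h]))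

theorem finite_mulSupport_heckeSeq (lam : Ideal (𝓞 F) → ℂ) {n : ℕ} (hn : 0 < n) :
    (Function.mulSupport fun v : FinPlace F =>
      heckeSeq (asaiEig lam v) (placeExp v n)).Finite :=
  (finite_placeExp hn).subset fun v hv h => hv (by simp [h, heckeSeq])

variable (M : ℕ) (lam : Ideal (𝓞 F) → ℂ)

/-- The Asai coefficient at `0` is `0`. -/
theorem asaiCoeff_zero : asaiCoeff M lam 0 = 0 := by simp [asaiCoeff]

/-- The Asai coefficient at `1` is `1`. -/
theorem asaiCoeff_one : asaiCoeff M lam 1 = 1 := by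
  rw [asaiCoeff, if_pos ⟨one_ne_zero, Nat.coprime_one_left M⟩]
  simp [placeExp_one, heckeSeq]

/-- The Asai coefficients are multiplicative. -/
theorem asaiCoeff_mul (m n : ℕ) (hmn : m.Coprime n) :
    asaiCoeff M lam (m * n) = asaiCoeff M lam m * asaiCoeff M lam n := by
  by_cases hm : m ≠ 0 ∧ m.Coprime M
  · by_cases hn : n ≠ 0 ∧ n.Coprime M
    · rw [asaiCoeff, asaiCoeff, asaiCoeff, if_pos hm, if_pos hn,
        if_pos ⟨mul_ne_zero hm.1 hn.1, Nat.Coprime.mul_left hm.2 hn.2⟩,
        ← finprod_mul_distrib (finite_mulSupport_heckeSeq lam (Nat.pos_of_ne_zero hm.1))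
          (finite_mulSupport_heckeSeq lam (Nat.pos_of_ne_zero hn.1))]
      refine finprod_congr fun v => ?_
      rw [placeExp_mul v (Nat.pos_of_ne_zero hm.1) (Nat.pos_of_ne_zero hn.1)]
      rcases placeExp_coprime v (Nat.pos_of_ne_zero hm.1) (Nat.pos_of_ne_zero hn.1) hmn with h | h
        <;> simp [h, heckeSeq]
    · conv_lhs => rw [asaiCoeff]
      rw [show asaiCoeff M lam n = 0 from if_neg hn, mul_zero, if_neg]
      rintro ⟨h1, h2⟩
      exact hn ⟨fun h => h1 (by simp [h]), Nat.Coprime.coprime_mul_left h2⟩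
  · conv_lhs => rw [asaiCoeff]
    rw [show asaiCoeff M lam m = 0 from if_neg hm, zero_mul, if_neg]
    rintro ⟨h1, h2⟩
    exact hm ⟨fun h => h1 (by simp [h]), Nat.Coprime.coprime_mul_right h2⟩

/-- The coefficient at a prime power, for any finite set of places containing those above `p`. -/
theorem asaiCoeff_prime_pow {p : ℕ} (hp : p.Prime) (hpM : p.Coprime M) (k : ℕ)
    {S : Finset (FinPlace F)} (hS : ∀ v : FinPlace F, (p : 𝓞 F) ∈ v.asIdeal → v ∈ S) :
    asaiCoeff M lam (p ^ k) = ∏ v ∈ S, heckeSeq (asaiEig lam v) (k * placeExp v p) := by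
  rw [asaiCoeff, if_pos ⟨pow_ne_zero k hp.ne_zero, Nat.Coprime.pow_left k hpM⟩]
  simp only [placeExp_pow _ hp.pos]
  refine finprod_eq_prod_of_mulSupport_subset _ fun v hv => ?_
  refine hS v (by_contra fun h => hv ?_)
  simp [(placeExp_eq_zero_iff v hp.pos).mpr h, heckeSeq]

end Fermat.Agent.LT.Asai

end
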