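import Fermat.Agent.LT.Whittaker.Adele
import Mathlib.Algebra.Group.Pi.Units
import Mathlib.NumberTheory.ModularForms.CongruenceSubgroups

/-!
# Congruences in `Ô`, lifts of residue classes to unit ideles, and the fixing conditions

`hatUnit R a` is the unit idele with component `a` at the primes dividing `R` and `1` elsewhere.
`IsFixing M h` is the congruence condition on the elements required to fix the chosen coset.
-/

set_option autoImplicit false

noncomputable section

open NumberField Matrix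
open scoped TensorProduct MatrixGroups

namespace Fermat.Agent.LT.Asai

variable {F : Type*} [Field F] [NumberField F]

/-- Divisibility by `n` inside `Ô`. -/
def CongMod (n : ℕ) (x : FinAdele F) : Prop :=
  ∃ a ∈ integralAdele F, x = (n : FinAdele F) * a

/-- An adele congruent to zero modulo `n` is integral. -/
theorem CongMod.integral {n : ℕ} {x : FinAdele F} (h : CongMod n x) : x ∈ integralAdele F := by
  obtain ⟨a, ha, rfl⟩ := h
  exact mul_mem (natCast_mem _ _) ha

/-- Congruences to zero add. -/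
theorem CongMod.add {n : ℕ} {x y : FinAdele F} (hx : CongMod n x) (hy : CongMod n y) :
    CongMod n (x + y) := by
  obtain ⟨a, ha, rfl⟩ := hx
  obtain ⟨b, hb, rfl⟩ := hy
  exact ⟨a + b, add_mem ha hb, by ring⟩

/-- Congruences to zero are stable under negation. -/
theorem CongMod.neg {n : ℕ} {x : FinAdele F} (hx : CongMod n x) : CongMod n (-x) := by
  obtain ⟨a, ha, rfl⟩ := hx
  exact ⟨-a, neg_mem ha, by ring⟩

/-- Congruences to zero subtract. -/
theorem CongMod.sub {n : ℕ} {x y : FinAdele F} (hx : CongMod n x) (hy : CongMod n y) :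
    CongMod n (x - y) := by
  rw [sub_eq_add_neg]; exact hx.add hy.neg

/-- Congruences to zero survive multiplication on the right by integral adeles. -/
theorem CongMod.mul_right {n : ℕ} {x y : FinAdele F} (hx : CongMod n x)
    (hy : y ∈ integralAdele F) : CongMod n (x * y) := by
  obtain ⟨a, ha, rfl⟩ := hx
  exact ⟨a * y, mul_mem ha hy, by ring⟩

/-- Congruences to zero survive multiplication on the left by integral adeles. -/
theorem CongMod.mul_left {n : ℕ} {x y : FinAdele F} (hx : CongMod n x)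
    (hy : y ∈ integralAdele F) : CongMod n (y * x) := by
  rw [mul_comm]; exact hx.mul_right hy

/-- A congruence modulo `n` holds modulo every divisor of `n`. -/
theorem CongMod.of_dvd {m n : ℕ} (h : m ∣ n) {x : FinAdele F} (hx : CongMod n x) :
    CongMod m x := by
  obtain ⟨k, rfl⟩ := h
  obtain ⟨a, ha, rfl⟩ := hx
  exact ⟨k * a, mul_mem (natCast_mem _ _) ha, by push_cast; ring⟩

/-- An integer multiple of `n` is congruent to zero modulo `n`. -/
theorem congMod_intCast {n : ℕ} {a : ℤ} (h : (n : ℤ) ∣ a) : CongMod n (a : FinAdele F) := by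
  obtain ⟨k, rfl⟩ := h
  exact ⟨k, intCast_mem _ k, by push_cast; ring⟩

/-- The component-wise lift. -/
def hatZ (R : ℕ) : ℤ →* Zhat where
  toFun a p := if (p : ℕ) ∣ R then (a : ℤ_[(p : ℕ)]) else 1
  map_one' := funext fun p => by simp
  map_mul' a b := funext fun p => by
    by_cases hp : (p : ℕ) ∣ R <;> simp [hp]

theorem hatZ_apply (R : ℕ) (a : ℤ) (p : Nat.Primes) :
    hatZ R a p = if (p : ℕ) ∣ R then (a : ℤ_[(p : ℕ)]) else 1 := rfl

/-- An integer prime to `R` lifts to a unit of the profinite integers. -/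
theorem isUnit_hatZ {R : ℕ} {a : ℤ} (h : IsCoprime a (R : ℤ)) : IsUnit (hatZ R a) := by
  rw [Pi.isUnit_iff]
  intro p
  rw [hatZ_apply]
  split_ifs with hp
  · rw [PadicInt.isUnit_iff]
    refine eq_of_le_of_not_lt (PadicInt.norm_le_one _) fun hlt => ?_
    have hd := (PadicInt.norm_int_lt_one_iff_dvd _).mp hlt
    obtain ⟨s, t, hst⟩ := h
    have : ((p : ℕ) : ℤ) ∣ 1 := hst ▸ dvd_add (dvd_mul_of_dvd_right hd s)
      (dvd_mul_of_dvd_right (Int.natCast_dvd_natCast.mpr hp) t)
    exact p.2.not_dvd_one (by exact_mod_cast this)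
  · exact isUnit_one

theorem exists_hatZ_eq (R : ℕ) (a : ℤ) :
    ∃ w : Zhat, hatZ R a = (a : Zhat) + (R : Zhat) * w := by
  have h : ∀ p : Nat.Primes, ∃ w : ℤ_[(p : ℕ)],
      hatZ R a p = (a : ℤ_[(p : ℕ)]) + (R : ℤ_[(p : ℕ)]) * w := by
    intro p
    rw [hatZ_apply]
    split_ifs with hp
    · exact ⟨0, by simp⟩
    · have hu : IsUnit (R : ℤ_[(p : ℕ)]) := by
        rw [PadicInt.isUnit_iff]
        refine eq_of_le_of_not_lt (PadicInt.norm_le_one _) fun hlt => hp ?_
        rw [← Int.cast_natCast, PadicInt.norm_int_lt_one_iff_dvd, Int.natCast_dvd_natCast] at hlt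
        exact hlt
      obtain ⟨r, hr⟩ := hu
      exact ⟨↑r⁻¹ * (1 - (a : ℤ_[(p : ℕ)])), by rw [← mul_assoc, ← hr, Units.mul_inv]; ring⟩
  choose w hw using h
  exact ⟨w, funext fun p => by simpa using hw p⟩

variable (F) in
/-- The unit idele lifting the class of `a` modulo `R`. -/
def hatAdele (R : ℕ) : ℤ →* FinAdele F :=
  (Algebra.TensorProduct.includeRight : Zhat →ₐ[ℤ] FinAdele F).toRingHom.toMonoidHom.comp (hatZ R)

theorem hatAdele_mem (R : ℕ) (a : ℤ) : hatAdele F R a ∈ integralAdele F :=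
  tmul_mem_integralAdele 1 (hatZ R a)

theorem congMod_hatAdele (R : ℕ) (a : ℤ) : CongMod R (hatAdele F R a - (a : FinAdele F)) := by
  obtain ⟨w, hw⟩ := exists_hatZ_eq R a
  refine ⟨(1 : F) ⊗ₜ w, tmul_mem_integralAdele 1 w, ?_⟩
  have e : hatAdele F R a =
      (Algebra.TensorProduct.includeRight : Zhat →ₐ[ℤ] FinAdele F) (hatZ R a) := rfl
  rw [e, hw, map_add, map_mul, map_intCast, map_natCast, add_sub_cancel_left]
  rfl

omit [NumberField F] in
theorem isUnit_hatAdele {R : ℕ} {a : ℤ} (h : IsCoprime a (R : ℤ)) : IsUnit (hatAdele F R a) :=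
  (isUnit_hatZ h).map (Algebra.TensorProduct.includeRight : Zhat →ₐ[ℤ] FinAdele F)

/-- The adelic lift of an integer only depends, modulo `R`, on its class modulo `R`. -/
theorem congMod_hatAdele_sub {R : ℕ} {a b : ℤ} (h : (a : ZMod R) = (b : ZMod R)) :
    CongMod R (hatAdele F R a - hatAdele F R b) := by
  have hd : (R : ℤ) ∣ a - b := by
    rw [← ZMod.intCast_zmod_eq_zero_iff_dvd, Int.cast_sub, h, sub_self]
  have := ((congMod_hatAdele (F := F) R a).sub (congMod_hatAdele R b)).add
    (congMod_intCast (F := F) hd)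
  rwa [Int.cast_sub, show hatAdele F R a - (a : FinAdele F) - (hatAdele F R b - (b : FinAdele F))
    + ((a : FinAdele F) - b) = hatAdele F R a - hatAdele F R b by ring] at this

variable (F) in
/-- A unit idele lifting a class in `(ℤ/R)ˣ`. -/
def hatUnit (R : ℕ) [NeZero R] (u : (ZMod R)ˣ) : (FinAdele F)ˣ :=
  (isUnit_hatAdele (F := F) (R := R) (a := ((u : ZMod R).val : ℤ))
    (Nat.isCoprime_iff_coprime.mpr (ZMod.val_coe_unit_coprime u))).unit

omit [NumberField F] in
/-- The underlying adele of the lift of a unit. -/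
theorem hatUnit_val (R : ℕ) [NeZero R] (u : (ZMod R)ˣ) :
    (hatUnit F R u : FinAdele F) = hatAdele F R ((u : ZMod R).val : ℤ) := rfl

/-- The lift of a unit modulo `R` is integral. -/
theorem hatUnit_mem (R : ℕ) [NeZero R] (u : (ZMod R)ˣ) :
    (hatUnit F R u : FinAdele F) ∈ integralAdele F := hatAdele_mem R _

/-- The lift of a unit modulo `R` reduces to it modulo `R`. -/
theorem congMod_hatUnit (R : ℕ) [NeZero R] (u : (ZMod R)ˣ) {a : ℤ}
    (ha : (u : ZMod R) = (a : ZMod R)) :
    CongMod R ((hatUnit F R u : FinAdele F) - (a : FinAdele F)) := by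
  have h1 := congMod_hatAdele_sub (F := F) (R := R) (a := ((u : ZMod R).val : ℤ)) (b := a)
    (by rw [Int.cast_natCast, ZMod.natCast_zmod_val, ha])
  have := h1.add (congMod_hatAdele R a)
  rwa [sub_add_sub_cancel, ← hatUnit_val] at this

/-- The inverse of the lift of a unit modulo `R` is integral. -/
theorem hatUnit_inv_mem (R : ℕ) [NeZero R] (u : (ZMod R)ˣ) :
    (((hatUnit F R u)⁻¹ : (FinAdele F)ˣ) : FinAdele F) ∈ integralAdele F := by
  have hu := isUnit_hatZ (R := R) (a := ((u : ZMod R).val : ℤ))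
    (Nat.isCoprime_iff_coprime.mpr (ZMod.val_coe_unit_coprime u))
  obtain ⟨w, hw⟩ := hu
  have hmul : (hatUnit F R u : FinAdele F) * ((1 : F) ⊗ₜ (↑w⁻¹ : Zhat)) = 1 := by
    show ((1 : F) ⊗ₜ hatZ R _) * ((1 : F) ⊗ₜ (↑w⁻¹ : Zhat)) = 1
    rw [Algebra.TensorProduct.tmul_mul_tmul, ← hw, mul_one, Units.mul_inv]
    rfl
  rw [Units.inv_eq_of_mul_eq_one_right hmul]
  exact tmul_mem_integralAdele 1 _

/-- The conditions on an element fixing the coset. -/
structure IsFixing (M : ℕ) (h : GLFin F) : Prop where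
  integral : ∀ i j, h.val i j ∈ integralAdele F
  integral_inv : ∀ i j, (h⁻¹ : GLFin F).val i j ∈ integralAdele F
  diag₀ : CongMod M (h.val 0 0 - 1)
  diag₁ : CongMod M (h.val 1 1 - 1)
  lower : CongMod (M ^ 2) (h.val 1 0)

variable (F) in
/-- `SL₂(ℤ)` inside `GL₂(F)`. -/
def slToGL : SL(2, ℤ) →* GL (Fin 2) F :=
  (Matrix.GeneralLinearGroup.map (Int.castRingHom F)).comp Matrix.SpecialLinearGroup.toGL

omit [NumberField F] in
/-- The entries of an element of `SL₂(ℤ)` seen over `F`. -/
theorem slToGL_apply (γ : SL(2, ℤ)) (i j : Fin 2) :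
    (slToGL F γ).val i j = ((γ i j : ℤ) : F) := rfl

omit [NumberField F] in
/-- The entries of an element of `SL₂(ℤ)` seen over the finite adeles. -/
theorem glIncl_slToGL_apply (γ : SL(2, ℤ)) (i j : Fin 2) :
    (glIncl F (slToGL F γ)).val i j = ((γ i j : ℤ) : FinAdele F) := by
  show finIncl F ((γ i j : ℤ) : F) = _
  rw [map_intCast]

end Fermat.Agent.LT.Asai

end
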