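import Fermat.Agent.LT.Asai.Main
import Fermat.Agent.LT.Whittaker.Bessel
import Mathlib.Analysis.SpecialFunctions.Gaussian.GaussianIntegral

/-!
# The archimedean profile of the restricted form

`profile a u = a u K₀(4π a u)` is nonnegative, its Mellin moments converge for `s > 1` and are
bounded below for `1 < s ≤ 3/2`.
-/

set_option autoImplicit false

noncomputable section

open MeasureTheory Set

namespace Fermat.Agent.LT.Asai

/-- The profile `u ↦ a u K₀ (4 π a u)`. -/
def profile (a : ℝ) (u : ℝ) : ℝ := a * u * Whittaker.besselK (4 * Real.pi * (a * u))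

theorem besselK_antitoneOn : AntitoneOn Whittaker.besselK (Ioi (0 : ℝ)) := by
  intro A hA B hB hAB
  refine setIntegral_mono_on (Whittaker.integrableOn_besselK hB) (Whittaker.integrableOn_besselK hA)
    measurableSet_Ioi fun r _ => Real.exp_le_exp.mpr ?_
  exact neg_le_neg (mul_le_mul_of_nonneg_right hAB (Real.cosh_pos r).le)

theorem besselK_le_sqrt {A : ℝ} (hA : 0 < A) :
    Whittaker.besselK A ≤ Real.exp (-A) * Real.sqrt (Real.pi / A) := by
  have hg : IntegrableOn (fun r : ℝ => Real.exp (-(A / 4) * r ^ 2)) (Ioi 0) :=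
    (integrable_exp_neg_mul_sq (by positivity)).integrableOn
  calc Whittaker.besselK A ≤ ∫ r in Ioi (0 : ℝ), Real.exp (-A) * Real.exp (-(A / 4) * r ^ 2) := by
        refine setIntegral_mono_on (Whittaker.integrableOn_besselK hA) (hg.const_mul _)
          measurableSet_Ioi fun r (hr : 0 < r) => ?_
        rw [← Real.exp_add, Real.exp_le_exp]
        have h1 := Real.quadratic_le_exp_of_nonneg hr.le
        have h2 := Real.add_one_le_exp (-r)
        have h3 : 1 + r ^ 2 / 4 ≤ Real.cosh r := by rw [Real.cosh_eq]; linarith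
        nlinarith [mul_le_mul_of_nonneg_left h3 hA.le]
    _ = _ := by
        rw [integral_const_mul, integral_gaussian_Ioi,
          show Real.pi / (A / 4) = 2 ^ 2 * (Real.pi / A) by field_simp; ring,
          Real.sqrt_mul (by norm_num), Real.sqrt_sq (by norm_num)]
        ring

theorem aestronglyMeasurable_profile {a : ℝ} (ha : 0 < a) :
    AEStronglyMeasurable (profile a) (volume.restrict (Ioi (0 : ℝ))) := by
  refine AEMeasurable.aestronglyMeasurable ?_
  have hK : AEMeasurable (fun u => Whittaker.besselK (4 * Real.pi * (a * u)))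
      (volume.restrict (Ioi (0 : ℝ))) := by
    refine aemeasurable_restrict_of_antitoneOn measurableSet_Ioi fun x hx y hy hxy => ?_
    have hc : 0 < 4 * Real.pi := by positivity
    exact besselK_antitoneOn (mul_pos hc (mul_pos ha hx)) (mul_pos hc (mul_pos ha hy))
      (mul_le_mul_of_nonneg_left (mul_le_mul_of_nonneg_left hxy ha.le) hc.le)
  exact ((measurable_const_mul a).aemeasurable).mul hK

theorem profile_nonneg {a u : ℝ} (ha : 0 < a) (hu : 0 < u) : 0 ≤ profile a u :=
  mul_nonneg (mul_pos ha hu).le (Whittaker.besselK_pos (by positivity)).le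

/-- The Mellin moments of the profile converge for `s > 1`. -/
theorem integrableOn_moment_profile {a : ℝ} (ha : 0 < a) {s : ℝ} (hs : 1 < s) :
    IntegrableOn (fun u => u ^ (s - 2) * profile a u) (Ioi 0) := by
  set b : ℝ := 4 * Real.pi * a with hb
  have hb0 : 0 < b := by positivity
  have hC := (integrableOn_rpow_mul_exp_neg_mul_rpow (p := 1) (s := s - 3 / 2) (by linarith)
    one_pos hb0).const_mul (a * Real.sqrt (Real.pi / b))
  refine Integrable.mono' hC
    (((measurable_id.pow_const (s - 2)).aestronglyMeasurable).mul (aestronglyMeasurable_profile ha))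
    ((ae_restrict_mem measurableSet_Ioi).mono fun u (hu : 0 < u) => ?_)
  rw [Real.norm_eq_abs, abs_of_nonneg (mul_nonneg (Real.rpow_nonneg hu.le _)
    (profile_nonneg ha hu))]
  have hA : 4 * Real.pi * (a * u) = b * u := by rw [hb]; ring
  have hK := besselK_le_sqrt (A := b * u) (by positivity)
  have hsq : Real.sqrt (Real.pi / (b * u)) = Real.sqrt (Real.pi / b) * u ^ (-(1 / 2) : ℝ) := by
    rw [← div_div, Real.sqrt_div' _ hu.le, Real.rpow_neg hu.le, ← Real.sqrt_eq_rpow,
      div_eq_mul_inv]
  rw [hsq] at hK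
  simp only [profile, hA, Real.rpow_one]
  calc u ^ (s - 2) * (a * u * Whittaker.besselK (b * u))
      ≤ u ^ (s - 2) * (a * u * (Real.exp (-(b * u)) *
          (Real.sqrt (Real.pi / b) * u ^ (-(1 / 2) : ℝ)))) :=
        mul_le_mul_of_nonneg_left (mul_le_mul_of_nonneg_left hK (by positivity))
          (Real.rpow_nonneg hu.le _)
    _ = a * Real.sqrt (Real.pi / b) *
          ((u ^ (s - 2) * u ^ (1 : ℝ) * u ^ (-(1 / 2) : ℝ)) * Real.exp (-b * u)) := by
        rw [Real.rpow_one, neg_mul]; ring
    _ = _ := by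
        rw [← Real.rpow_add hu, ← Real.rpow_add hu]
        ring_nf

/-- The Mellin moments of the profile are bounded below for `1 < s ≤ 3/2`. -/
theorem exists_moment_profile_lower {a : ℝ} (ha : 0 < a) :
    ∃ m : ℝ, 0 < m ∧ ∀ s : ℝ, 1 < s → s ≤ 3 / 2 → m ≤ moment (profile a) s := by
  set K := Whittaker.besselK (4 * Real.pi * (a * 2))
  have hK : 0 < K := Whittaker.besselK_pos (by positivity)
  refine ⟨1 / 2 * (a * K), by positivity, fun s hs hs' => ?_⟩
  have hint := integrableOn_moment_profile ha hs
  have hsub : Ioc (1 : ℝ) 2 ⊆ Ioi 0 := fun u hu => lt_trans one_pos hu.1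
  calc 1 / 2 * (a * K) = ∫ _ in Ioc (1 : ℝ) 2, 1 / 2 * (a * K) := by
        norm_num
    _ ≤ ∫ u in Ioc (1 : ℝ) 2, u ^ (s - 2) * profile a u := by
        refine setIntegral_mono_on (integrableOn_const (by simp)) (hint.mono_set hsub)
          measurableSet_Ioc fun u hu => ?_
        have hu0 : 0 < u := hsub hu
        have h1 : (1 / 2 : ℝ) ≤ u ^ (s - 2) := by
          calc (1 / 2 : ℝ) = (2 : ℝ) ^ (-1 : ℝ) := by rw [Real.rpow_neg_one]; norm_num
            _ ≤ (2 : ℝ) ^ (s - 2) := Real.rpow_le_rpow_of_exponent_le one_le_two (by linarith)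
            _ ≤ u ^ (s - 2) := Real.rpow_le_rpow_of_nonpos hu0 hu.2 (by linarith)
        refine mul_le_mul h1 ?_ (by positivity) (Real.rpow_nonneg hu0.le _)
        refine mul_le_mul (le_mul_of_one_le_right ha.le hu.1.le) ?_ hK.le (by positivity)
        exact besselK_antitoneOn (by simp; positivity) (by simp; positivity)
          (by gcongr; exact hu.2)
    _ ≤ moment (profile a) s :=
        setIntegral_mono_set hint ((ae_restrict_mem measurableSet_Ioi).mono
          fun u (hu : 0 < u) => mul_nonneg (Real.rpow_nonneg hu.le _) (profile_nonneg ha hu))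
          hsub.eventuallyLE

end Fermat.Agent.LT.Asai

end
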