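import Fermat.Agent.LT.Asai.Restrict.Classical
import Fermat.Agent.LT.Asai.Restrict.Profile

/-!
# The constant term of the classical function

The mean of the classical function along the line `Im τ = y` is a constant times
`∑ asaiCoeff(n) / n · profile (n y)`, the constant containing the coefficient at `n₀ δ`
(`constant_term`).
-/

set_option autoImplicit false

noncomputable section

open MeasureTheory NumberField Fermat.Agent.LT.Places
open scoped UpperHalfPlane
open NumberField (InfinitePlace)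

namespace Fermat.Agent.LT.Asai

/-- The size of `1 / √(-3)`. -/
def deltaAbs : ℝ := (default : InfinitePlace EisField) eisDelta

/-- `deltaAbs` is positive. -/
theorem deltaAbs_pos : 0 < deltaAbs := InfinitePlace.pos_iff.mpr eisDelta_ne_zero

theorem bessel_int_eq (n₀ : ℕ) (k : ℤ) (y : ℝ) :
    Whittaker.bessel ((((n₀ : ℤ) * k : ℤ) : EisField) * eisDelta) (fun _ => y) =
      profile ((n₀ : ℝ) * deltaAbs) ((k.natAbs : ℝ) * y) := by
  have h : (default : InfinitePlace EisField) ((((n₀ : ℤ) * k : ℤ) : EisField) * eisDelta) =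
      (n₀ : ℝ) * (k.natAbs : ℝ) * deltaAbs := by
    rw [map_mul, deltaAbs, ← InfinitePlace.norm_embedding_eq, map_intCast, Complex.norm_intCast,
      Int.cast_mul, abs_mul, Int.cast_natCast, Nat.abs_cast, Nat.cast_natAbs, Int.cast_abs]
  rw [bessel_apply, h, profile]
  ring_nf

theorem not_differentIdeal_le_of_three_dvd {M : ℕ} (h3 : 3 ∣ M) (v : FinPlace EisField)
    (hv : (M : 𝓞 EisField) ∉ v.asIdeal) : ¬ differentIdeal ℤ (𝓞 EisField) ≤ v.asIdeal := by
  refine Whittaker.not_differentIdeal_le_three v fun h => hv ?_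
  obtain ⟨k, rfl⟩ := h3
  rw [Nat.cast_mul]
  exact Ideal.mul_mem_right _ _ (by simpa using h)

/-- `eisDelta` is a unit away from a level divisible by `3`. -/
theorem valuation_eisDelta {M : ℕ} (h3 : 3 ∣ M) (v : FinPlace EisField)
    (hv : (M : 𝓞 EisField) ∉ v.asIdeal) : v.valuation EisField eisDelta = 1 := by
  have hne : ((3 : ℕ) : 𝓞 EisField) ∉ v.asIdeal := fun h => hv (by
    obtain ⟨k, rfl⟩ := h3
    rw [Nat.cast_mul]
    exact Ideal.mul_mem_right _ _ h)
  have h3v : v.valuation EisField ((3 : ℕ) : EisField) = 1 := by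
    rw [valuation_eq_exp_placeExp v three_pos, (placeExp_eq_zero_iff v three_pos).mpr hne]
    simp
  have hsq : v.valuation EisField eisSqrt ^ 2 = 1 := by
    rw [← map_pow, eisSqrt_sq, Valuation.map_neg]
    simpa using h3v
  rw [eisDelta, map_inv₀, (pow_eq_one_iff.1 hsq).resolve_right two_ne_zero, inv_one]

/-- The hypotheses on the form, the coset and the modulus. -/
structure RestrictHyp {U : Level EisField} (φ : Y U → ℂ)
    (lam : Ideal (𝓞 EisField) → ℂ) (N M n₀ : ℕ) (g : GLFin EisField) : Prop where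
  cuspEigen : Whittaker.IsCuspEigen φ
  pos : 0 < N
  eigen : IsHeckeEigenSystem N φ lam
  real : ∀ v : FinPlace EisField, (M : 𝓞 EisField) ∉ v.asIdeal → (lam v.asIdeal).im = 0
  modulus_pos : 0 < M
  three_dvd : 3 ∣ M
  level_dvd : N ∣ M
  good : ∀ v : FinPlace EisField, (M : 𝓞 EisField) ∉ v.asIdeal → IsGoodAt U v
  integral : ∀ v : FinPlace EisField, (M : 𝓞 EisField) ∉ v.asIdeal → glPlace v g ∈ intGroup v
  fixed : ∀ h : GLFin EisField, IsFixing M h →
    h • (g : GLFin EisField ⧸ U.toSubgroup) = (g : GLFin EisField ⧸ U.toSubgroup)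
  base_pos : 0 < n₀
  base_dvd : ∃ k, n₀ ∣ M ^ k
  coef_ne_zero : Whittaker.coef φ (g : GLFin EisField ⧸ U.toSubgroup)
    ((n₀ : EisField) * eisDelta) ≠ 0

/-- The number of units modulo `R` congruent to one modulo `M`. -/
def unitCount (R M : ℕ) [NeZero R] : ℕ :=
  (Finset.univ.filter fun u : (ZMod R)ˣ => (((u : ZMod R).val : ℤ) : ZMod M) = 1).card

/-- The unit count is positive. -/
theorem unitCount_pos {R M : ℕ} [NeZero R] (hMR : M ∣ R) : 0 < unitCount R M :=
  Finset.card_pos.mpr ⟨1, Finset.mem_filter.mpr ⟨Finset.mem_univ _, by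
    rw [Int.cast_natCast, ← ZMod.cast_eq_val, Units.val_one, ZMod.cast_one hMR]⟩⟩

theorem card_filter_unit {R M : ℕ} [NeZero R] [NeZero M] (hMR : M ∣ R) {k : ℤ}
    (hk : IsCoprime k (M : ℤ)) :
    (Finset.univ.filter fun u : (ZMod R)ˣ =>
      (k : ZMod M) * (((u : ZMod R).val : ℤ) : ZMod M) = 1).card = unitCount R M := by
  classical
  have hcast : ∀ u : (ZMod R)ˣ, (((u : ZMod R).val : ℤ) : ZMod M) =
      (ZMod.unitsMap hMR u : ZMod M) :=
    fun u => by
      rw [Int.cast_natCast, ← ZMod.cast_eq_val, ZMod.unitsMap_val]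
  obtain ⟨s, t, hst⟩ := hk
  have hks : (k : ZMod M) * (s : ZMod M) = 1 := by
    have := congrArg (fun z : ℤ => (z : ZMod M)) hst
    simpa [mul_comm] using this
  obtain ⟨u₁, hu₁⟩ := ZMod.unitsMap_surjective hMR
    (Units.mkOfMulEqOne (k : ZMod M) (s : ZMod M) hks)
  refine Finset.card_nbij' (fun u => u * u₁) (fun u => u * u₁⁻¹) (fun u hu => ?_) (fun u hu => ?_)
    (fun u _ => mul_inv_cancel_right u u₁) (fun u _ => inv_mul_cancel_right u u₁)
  · simp only [Finset.coe_filter, Finset.mem_univ, true_and, Set.mem_ofPred_eq, hcast, map_mul,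
      Units.val_mul, hu₁, Units.val_mkOfMulEqOne] at hu ⊢
    rw [mul_comm]; exact hu
  · simp only [Finset.coe_filter, Finset.mem_univ, true_and, Set.mem_ofPred_eq, hcast, map_mul,
      map_inv, Units.val_mul, hu₁] at hu ⊢
    rw [hu, one_mul]
    exact Units.mul_inv (Units.mkOfMulEqOne (k : ZMod M) (s : ZMod M) hks)

variable {U : Level EisField} {φ : Y U → ℂ} {lam : Ideal (𝓞 EisField) → ℂ} {N M n₀ : ℕ}
  {g : GLFin EisField}

theorem unitWhit_eq (H : RestrictHyp φ lam N M n₀ g) {R : ℕ} [NeZero R] (hMR : M ∣ R)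
    (u : (ZMod R)ˣ) {k : ℤ} (hk : k ≠ 0)
    (hku : (k : ZMod M) * (((u : ZMod R).val : ℤ) : ZMod M) = 1) :
    unitWhit R φ (g : GLFin EisField ⧸ U.toSubgroup) u ((n₀ : ℤ) * k) =
      ((asaiCoeff M lam k.natAbs / (k.natAbs : ℝ) : ℝ) : ℂ) *
        Whittaker.coef φ (g : GLFin EisField ⧸ U.toSubgroup) ((n₀ : EisField) * eisDelta) := by
  set n := k.natAbs
  have hn : 0 < n := Int.natAbs_pos.mpr hk
  have hn₀ : ((n₀ : ℤ)) ≠ 0 := by exact_mod_cast H.base_pos.ne'
  have hcop : n.Coprime M := by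
    have hu : IsUnit (k : ZMod M) := IsUnit.of_mul_eq_one _ hku
    rw [ZMod.coe_int_isUnit_iff_isCoprime, Int.isCoprime_iff_gcd_eq_one] at hu
    rw [Nat.coprime_comm]
    simpa [Int.gcd] using hu
  set α₀ : (FinAdele EisField)ˣ :=
    Units.map (finIncl EisField).toMonoidHom (scaleDelta (n₀ : ℤ) hn₀)
  set kF : EisFieldˣ := Units.mk0 (k : EisField) (Int.cast_ne_zero.mpr hk)
  set t₀ : (FinAdele EisField)ˣ :=
    Units.map (finIncl EisField).toMonoidHom kF * hatUnit EisField R u with ht₀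
  have hprod : Units.map (finIncl EisField).toMonoidHom (scaleDelta ((n₀ : ℤ) * k)
      (mul_ne_zero hn₀ hk)) * hatUnit EisField R u = α₀ * t₀ := by
    rw [ht₀, ← mul_assoc, ← map_mul]
    congr 2
    refine Units.ext ?_
    simp only [scaleDelta, kF, Units.val_mk0, Units.val_mul, Int.cast_mul]
    ring
  rw [unitWhit, dif_neg (mul_ne_zero hn₀ hk), hprod]
  have hval : ∀ v : FinPlace EisField,
      placeVal v (t₀ : FinAdele EisField) = v.valuation EisField (n : EisField) := fun v => by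
    rw [ht₀, Units.val_mul, placeVal_mul, placeVal_hatUnit, mul_one]
    show placeVal v (finIncl EisField (k : EisField)) = _
    rw [placeVal_finIncl]
    rcases Int.natAbs_eq k with h | h <;> rw [h]
    · simp [n]
    · simp [n, Valuation.map_neg]
  have hcong : CongMod M ((t₀ : FinAdele EisField) - 1) := by
    have h1 : CongMod M (finIncl EisField (k : EisField) * ((hatUnit EisField R u :
        FinAdele EisField) - (((u : ZMod R).val : ℤ) : FinAdele EisField))) := by
      refine ((congMod_hatUnit R u (a := ((u : ZMod R).val : ℤ))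
        (by rw [Int.cast_natCast, ZMod.natCast_zmod_val])).of_dvd hMR).mul_left ?_
      rw [map_intCast]; exact intCast_mem _ _
    have h2 : CongMod M (((k * ((u : ZMod R).val : ℤ) - 1 : ℤ) : FinAdele EisField)) :=
      congMod_intCast ((ZMod.intCast_zmod_eq_zero_iff_dvd _ M).mp (by
        push_cast at hku ⊢; rw [hku, sub_self]))
    have h := h1.add h2
    rw [ht₀, Units.val_mul]
    show CongMod M (finIncl EisField (k : EisField) * _ - 1)
    convert h using 1
    push_cast [map_intCast]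
    ring
  have hα₀ : ∀ v : FinPlace EisField, (M : 𝓞 EisField) ∉ v.asIdeal →
      placeVal v (α₀ : FinAdele EisField) = 1 := fun v hv => by
    show placeVal v (finIncl EisField (((n₀ : ℤ) : EisField) * eisDelta)) = 1
    rw [placeVal_finIncl, map_mul, valuation_eisDelta H.three_dvd v hv, mul_one, Int.cast_natCast,
      valuation_eq_exp_placeExp v H.base_pos, (placeExp_eq_zero_iff v H.base_pos).mpr fun h => ?_]
    · simp
    · obtain ⟨e, f, hef⟩ := H.base_dvd
      have hmem : (M : 𝓞 EisField) ^ e ∈ v.asIdeal := by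
        rw [← Nat.cast_pow, hef, Nat.cast_mul]
        exact Ideal.mul_mem_right _ _ h
      exact hv (v.isPrime.mem_of_pow_mem e hmem)
  have hbase : Whittaker.whit φ (dia α₀ • (g : GLFin EisField ⧸ U.toSubgroup)) =
      Whittaker.coef φ (g : GLFin EisField ⧸ U.toSubgroup) ((n₀ : EisField) * eisDelta) := by
    rw [show (n₀ : EisField) * eisDelta = ((scaleDelta (n₀ : ℤ) hn₀ : EisFieldˣ) : EisField) by
      simp [scaleDelta], Whittaker.coef_eq_whit H.cuspEigen, Whittaker.glIncl_dia]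
  rw [whit_unit_class H.cuspEigen H.pos H.eigen H.modulus_pos H.level_dvd H.good
    (not_differentIdeal_le_of_three_dvd H.three_dvd) g H.integral H.fixed α₀ hα₀ t₀ n hn hcop
    hval hcong, hbase, prod_heckeCoeff (M := M) hn hcop
      (fun v hv => (Set.Finite.mem_toFinset _).mpr hv) (fun v hv => H.real v fun hMv => ?_),
    finrank_eisField, Real.sqrt_sq (Nat.cast_nonneg n)]
  replace hv : placeExp v n ≠ 0 := (Set.Finite.mem_toFinset _).mp hv
  rcases placeExp_coprime v hn H.modulus_pos hcop with h | h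
  · exact hv h
  · exact (placeExp_eq_zero_iff v H.modulus_pos).mp h hMv

/-- The projected coefficient at `n₀ k`. -/
theorem sum_projection (H : RestrictHyp φ lam N M n₀ g) [NeZero ((n₀ * M) ^ 2)] (n : ℤ) :
    (∑ u : (ZMod ((n₀ * M) ^ 2))ˣ,
      if ((n₀ * M : ℕ) : ℤ) ∣ (n₀ : ℤ) - n * ((u : ZMod ((n₀ * M) ^ 2)).val : ℤ) then
        ((n₀ * M : ℕ) : ℂ) * unitWhit ((n₀ * M) ^ 2) φ (g : GLFin EisField ⧸ U.toSubgroup) u n
      else 0) =
    if (n₀ : ℤ) ∣ n then
      ((n₀ * M : ℕ) : ℂ) * (unitCount ((n₀ * M) ^ 2) M : ℂ) *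
        Whittaker.coef φ (g : GLFin EisField ⧸ U.toSubgroup) ((n₀ : EisField) * eisDelta) *
        ((asaiCoeff M lam (n / n₀).natAbs / ((n / n₀).natAbs : ℝ) : ℝ) : ℂ)
    else 0 := by
  classical
  have : NeZero M := ⟨H.modulus_pos.ne'⟩
  have hn₀ : (n₀ : ℤ) ≠ 0 := by exact_mod_cast H.base_pos.ne'
  split_ifs with hdiv
  · obtain ⟨k, rfl⟩ := hdiv
    rw [Int.mul_ediv_cancel_left _ hn₀]
    have hcond : ∀ u : (ZMod ((n₀ * M) ^ 2))ˣ,
        (((n₀ * M : ℕ) : ℤ) ∣ (n₀ : ℤ) - n₀ * k * ((u : ZMod ((n₀ * M) ^ 2)).val : ℤ)) ↔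
          (k : ZMod M) * (((u : ZMod ((n₀ * M) ^ 2)).val : ℤ) : ZMod M) = 1 := fun u => by
      rw [Nat.cast_mul, mul_assoc, ← mul_one_sub, mul_dvd_mul_iff_left hn₀,
        ← ZMod.intCast_zmod_eq_zero_iff_dvd, Int.cast_sub, Int.cast_one, Int.cast_mul, sub_eq_zero,
        eq_comm]
    simp only [hcond]
    by_cases hcop : IsCoprime k (M : ℤ) ∧ k ≠ 0
    · have e : ∀ u : (ZMod ((n₀ * M) ^ 2))ˣ,
          (k : ZMod M) * (((u : ZMod ((n₀ * M) ^ 2)).val : ℤ) : ZMod M) = 1 →
          unitWhit ((n₀ * M) ^ 2) φ (g : GLFin EisField ⧸ U.toSubgroup) u ((n₀ : ℤ) * k) =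
            ((asaiCoeff M lam k.natAbs / (k.natAbs : ℝ) : ℝ) : ℂ) *
              Whittaker.coef φ (g : GLFin EisField ⧸ U.toSubgroup) ((n₀ : EisField) * eisDelta) :=
        fun u hu => unitWhit_eq H (dvd_trans (dvd_mul_left M n₀) (dvd_pow_self _ two_ne_zero)) u
          hcop.2 hu
      rw [← Finset.sum_filter, Finset.sum_congr rfl fun u hu =>
        congrArg _ (e u (Finset.mem_filter.mp hu).2), Finset.sum_const,
        card_filter_unit (dvd_trans (dvd_mul_left M n₀) (dvd_pow_self _ two_ne_zero)) hcop.1,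
        nsmul_eq_mul]
      ring
    · have hz : asaiCoeff M lam k.natAbs = 0 := by
        refine if_neg fun ⟨h1, h2⟩ => hcop ⟨?_, fun h => h1 (by simp [h])⟩
        rw [Int.isCoprime_iff_gcd_eq_one]
        simpa [Int.gcd] using h2
      rw [hz, zero_div, Complex.ofReal_zero, mul_zero, Finset.sum_eq_zero fun u _ => ?_]
      split_ifs with hu
      · rcases eq_or_ne k 0 with rfl | hk0
        · rw [mul_zero, unitWhit, dif_pos rfl, mul_zero]
        · refine absurd ⟨?_, hk0⟩ hcop
          have h := IsUnit.of_mul_eq_one _ hu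
          rwa [ZMod.coe_int_isUnit_iff_isCoprime, isCoprime_comm] at h
      · rfl
  · refine Finset.sum_eq_zero fun u _ => if_neg fun hd => hdiv ?_
    have h1 : (n₀ : ℤ) ∣ n * ((u : ZMod ((n₀ * M) ^ 2)).val : ℤ) := by
      have := dvd_sub (dvd_refl (n₀ : ℤ))
        ((Int.natCast_dvd_natCast.mpr (dvd_mul_right n₀ M)).trans hd)
      simpa using this
    refine Int.dvd_of_dvd_mul_left_of_gcd_one h1 ?_
    have hu := Nat.Coprime.coprime_dvd_right
      (dvd_trans (dvd_mul_right n₀ M) (dvd_pow_self _ two_ne_zero))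
      (ZMod.val_coe_unit_coprime u)
    rw [Int.gcd_natCast_natCast]
    exact hu.symm

/-- The mean of the classical function along a horizontal line. -/
theorem constant_term (H : RestrictHyp φ lam N M n₀ g) [NeZero ((n₀ * M) ^ 2)] {y : ℝ}
    (hy : 0 < y) :
    ∫ x in Set.Ico (0 : ℝ) 1,
        classical φ (g : GLFin EisField ⧸ U.toSubgroup) (n₀ * M) n₀
          (UpperHalfPlane.ofComplex (⟨x, y⟩ : ℂ)) =
      2 * ((n₀ * M : ℕ) : ℂ) * (unitCount ((n₀ * M) ^ 2) M : ℂ) *
          Whittaker.coef φ (g : GLFin EisField ⧸ U.toSubgroup) ((n₀ : EisField) * eisDelta) *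
        ((∑' n : ℕ, asaiCoeff M lam n / n * profile ((n₀ : ℝ) * deltaAbs) (n * y) : ℝ) : ℂ) := by
  classical
  set c := (g : GLFin EisField ⧸ U.toSubgroup)
  set m := n₀ * M
  have hm : 0 < m := Nat.mul_pos H.base_pos H.modulus_pos
  have hn₀ : (n₀ : ℤ) ≠ 0 := by exact_mod_cast H.base_pos.ne'
  set C : (ZMod (m ^ 2))ˣ → ℕ → GLFin EisField ⧸ U.toSubgroup :=
    fun u j => shiftCoset (m ^ 2) c u (shiftAt m j) with hC
  have hpt : ∀ x : ℝ, planePt EisField (UpperHalfPlane.ofComplex (⟨x, y⟩ : ℂ)) =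
      Whittaker.ptAt (fun _ => (x : ℂ)) (fun _ => y) := fun x => by
    rw [UpperHalfPlane.ofComplex_apply_of_im_pos (z := (⟨x, y⟩ : ℂ)) hy]
    rfl
  have ht : ∀ w : InfinitePlace EisField, 0 < (fun _ => y : InfinitePlace EisField → ℝ) w :=
    fun _ => hy
  have hint : ∀ u j, Integrable (fun x : ℝ => rootExp m ((j : ℕ) * n₀) *
      φ (Whittaker.ptAt (fun _ => (x : ℂ)) (fun _ => y), C u j))
      (volume.restrict (Set.Ico (0 : ℝ) 1)) := fun u j => by
    obtain ⟨B, hB⟩ := H.cuspEigen.bounded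
    refine Integrable.of_bound (μ := volume.restrict (Set.Ico (0 : ℝ) 1)) ?_
      (‖rootExp m ((j : ℕ) * n₀)‖ * B) (Filter.Eventually.of_forall fun x => ?_)
    · exact (continuous_const.mul ((H.cuspEigen.continuous _).comp
        ((Whittaker.continuous_ptAt ht).comp (by fun_prop)))).aestronglyMeasurable
    · rw [norm_mul]; exact mul_le_mul_of_nonneg_left (hB _) (norm_nonneg _)
  have hsum : ∀ u j, Summable fun n : ℤ => rootExp m ((j : ℕ) * n₀) *
      (Whittaker.coef φ (C u j) ((n : EisField) * eisDelta) *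
        (Whittaker.bessel ((n : EisField) * eisDelta) (fun _ => y) : ℂ)) := fun u j => by
    refine Summable.mul_left _ ?_
    have h := ((Whittaker.isExpansion_coef H.cuspEigen (C u j)).2 0 _ ht).summable.comp_injective
      (i := fun n : ℤ => (n : EisField) * eisDelta)
      fun a b h => Int.cast_injective (mul_right_cancel₀ eisDelta_ne_zero h)
    exact h.congr fun n => by simp [Whittaker.expChar_zero]
  simp only [classical, hpt]
  rw [integral_finsetSum _ fun u _ => integrable_finsetSum _ fun j _ => hint u j]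
  rw [Finset.sum_congr rfl fun u _ => integral_finsetSum _ fun j _ => hint u j]
  simp only [integral_const_mul]
  have hhor : ∀ u j, ∫ x in Set.Ico (0 : ℝ) 1,
      φ (Whittaker.ptAt (fun _ : InfinitePlace EisField => (x : ℂ)) (fun _ => y), C u j) =
      ∑' n : ℤ, Whittaker.coef φ (C u j) ((n : EisField) * eisDelta) *
        (Whittaker.bessel ((n : EisField) * eisDelta) (fun _ => y) : ℂ) := fun u j =>
    integral_horizontal H.cuspEigen (fun v hv => unip_smul_shiftCoset H.fixed u _ hv) hy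
  rw [Finset.sum_congr rfl fun u _ => Finset.sum_congr rfl fun j _ => by
    rw [hhor u j, ← tsum_mul_left]]
  rw [Finset.sum_congr rfl fun u _ => (Summable.tsum_finsetSum fun j _ => hsum u j).symm,
    ← Summable.tsum_finsetSum fun u _ => summable_sum fun j _ => hsum u j]
  set K : ℂ := (m : ℂ) * (unitCount (m ^ 2) M : ℂ) *
    Whittaker.coef φ c ((n₀ : EisField) * eisDelta) with hK
  set a : ℝ := (n₀ : ℝ) * deltaAbs
  set T : ℤ → ℂ := fun k => K *
    ((asaiCoeff M lam k.natAbs / (k.natAbs : ℝ) * profile a (k.natAbs * y) : ℝ) : ℂ) with hT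
  set G : ℤ → ℂ := fun n => ∑ u, ∑ j ∈ Finset.range m, rootExp m ((j : ℕ) * n₀) *
    (Whittaker.coef φ (C u j) ((n : EisField) * eisDelta) *
      (Whittaker.bessel ((n : EisField) * eisDelta) (fun _ => y) : ℂ)) with hG
  have hGsum : Summable G := summable_sum fun u _ => summable_sum fun j _ => hsum u j
  have hGeq : ∀ n : ℤ, G n = if (n₀ : ℤ) ∣ n then T (n / n₀) else 0 := fun n => by
    simp only [hG, ← mul_assoc, ← Finset.sum_mul, hC]
    rw [Finset.sum_congr rfl fun u _ => sum_coef_shiftCoset H.cuspEigen c hm n₀ u n,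
      sum_projection H n]
    split_ifs with hd
    · obtain ⟨k, rfl⟩ := hd
      rw [bessel_int_eq, Int.mul_ediv_cancel_left _ hn₀, hT, hK]
      simp only [Complex.ofReal_mul, m, c, a]
      ring
    · rw [zero_mul]
  show ∑' n, G n = _
  have hinj : Function.Injective fun k : ℤ => (n₀ : ℤ) * k := fun a b h => mul_left_cancel₀ hn₀ h
  have hGT : ∀ k : ℤ, G ((n₀ : ℤ) * k) = T k := fun k => by
    rw [hGeq, if_pos (dvd_mul_right _ _), Int.mul_ediv_cancel_left _ hn₀]
  have hTsum : Summable T := (hGsum.comp_injective hinj).congr hGT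
  have heq : ∑' n, G n = ∑' k, T k := by
    rw [← hinj.tsum_eq (f := G) fun n hn => ?_]
    · exact tsum_congr hGT
    · rw [Function.mem_support, hGeq] at hn
      split_ifs at hn with h
      · obtain ⟨k, rfl⟩ := h
        exact ⟨k, rfl⟩
      · exact absurd rfl hn
  have hT0 : T 0 = 0 := by simp [hT, asaiCoeff_zero]
  have h2 := hTsum.hasSum.nat_add_neg
  rw [hT0, add_zero] at h2
  rw [heq, ← h2.tsum_eq, Complex.ofReal_tsum, ← tsum_mul_left]
  refine tsum_congr fun n => ?_
  simp only [hT, hK, Int.natAbs_natCast, Int.natAbs_neg]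
  ring

end Fermat.Agent.LT.Asai

end
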