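import Fermat.Agent.LT.Asai.Restrict.Cong
import Fermat.Agent.LT.Whittaker.Law
import Fermat.Agent.LT.H3.Coord
import Mathlib.Analysis.Complex.UpperHalfPlane.MoebiusAction

/-!
# Translated cosets, the action of `Γ₀(R)` on them, and `ℍ` inside hyperbolic space

`shiftCoset R c u x = dia û • unip x • c`; for `γ ∈ Γ₀(R)` one has
`γ • shiftCoset R c u x = shiftCoset R c (γ₀₀² u) x` when `c` is fixed by `IsFixing M`.
-/

set_option autoImplicit false

noncomputable section

open Matrix CongruenceSubgroup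
open scoped MatrixGroups UpperHalfPlane
open NumberField (InfinitePlace)

namespace Fermat.Agent.LT.Asai

variable {F : Type*} [Field F] [NumberField F]

/-- The conditions on a translation `x` for the modulus `R`. -/
structure IsShift (M R : ℕ) (x : FinAdele F) : Prop where
  dvd : M ^ 2 ∣ R
  linear : CongMod M ((R : FinAdele F) * x)
  quad : (R : FinAdele F) * x * x ∈ integralAdele F

theorem IsShift.congMod_mul {M R : ℕ} {x e : FinAdele F} (hx : IsShift M R x)
    (he : CongMod R e) : CongMod M (e * x) := by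
  obtain ⟨a, ha, rfl⟩ := he
  rw [show (R : FinAdele F) * a * x = (R : FinAdele F) * x * a by ring]
  exact hx.linear.mul_right ha

/-- A shift squared times an adele congruent to zero is integral. -/
theorem IsShift.mul_mem {M R : ℕ} {x e : FinAdele F} (hx : IsShift M R x)
    (he : CongMod R e) : e * x * x ∈ integralAdele F := by
  obtain ⟨a, ha, rfl⟩ := he
  rw [show (R : FinAdele F) * a * x * x = (R : FinAdele F) * x * x * a by ring]
  exact Subring.mul_mem _ hx.quad ha

omit [NumberField F] in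
/-- The entries of `unip (-x) * diag (s, 1) * z * (a b; c d) * diag (t, 1) * unip x`. -/
theorem conj_entries (x z s t a b c d : FinAdele F) :
    (!![1, -x; 0, 1] * (!![s, 0; 0, 1] * (z • !![a, b; c, d]) * !![t, 0; 0, 1]) * !![1, x; 0, 1]) =
      !![z * a * s * t - z * c * t * x,
          (z * a * s * t - z * d) * x + z * b * s - z * c * t * x * x;
        z * c * t, z * c * t * x + z * d] := by
  ext i j
  fin_cases i <;> fin_cases j <;>
    simp [Matrix.mul_apply, Fin.sum_univ_two] <;> ring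

theorem conj_entries_integral {M R : ℕ} {x z s t a b c d : FinAdele F} (hx : IsShift M R x)
    (hz : z ∈ integralAdele F) (hs : s ∈ integralAdele F) (ht : t ∈ integralAdele F)
    (hb : b ∈ integralAdele F) (hd : d ∈ integralAdele F) (hc : CongMod R c)
    (h₀ : CongMod R (z * a * s * t - 1)) (h₁ : CongMod R (z * d - 1)) :
    (∀ i j, !![z * a * s * t - z * c * t * x,
          (z * a * s * t - z * d) * x + z * b * s - z * c * t * x * x;
        z * c * t, z * c * t * x + z * d] i j ∈ integralAdele F) ∧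
      CongMod M (z * a * s * t - z * c * t * x - 1) ∧
      CongMod M (z * c * t * x + z * d - 1) ∧ CongMod (M ^ 2) (z * c * t) := by
  have hzct : CongMod R (z * c * t) := (hc.mul_left hz).mul_right ht
  have hMR : M ∣ R := (dvd_pow_self M two_ne_zero).trans hx.dvd
  have e₀ : CongMod M (z * a * s * t - z * c * t * x - 1) := by
    rw [show z * a * s * t - z * c * t * x - 1 = z * a * s * t - 1 - z * c * t * x by ring]
    exact (h₀.of_dvd hMR).sub (hx.congMod_mul hzct)
  have e₁ : CongMod M (z * c * t * x + z * d - 1) := by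
    rw [show z * c * t * x + z * d - 1 = z * c * t * x + (z * d - 1) by ring]
    exact (hx.congMod_mul hzct).add (h₁.of_dvd hMR)
  refine ⟨fun i j => ?_, e₀, e₁, hzct.of_dvd hx.dvd⟩
  fin_cases i <;> fin_cases j
  · simpa using add_mem e₀.integral (one_mem (integralAdele F))
  · simpa using sub_mem (add_mem (hx.congMod_mul (h₀.sub h₁)).integral
      (Subring.mul_mem _ (Subring.mul_mem _ hz hb) hs)) (hx.mul_mem hzct)
  · simpa using hzct.integral
  · simpa using add_mem (hx.congMod_mul hzct).integral (Subring.mul_mem _ hz hd)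

/-- `dia û • unip x • c`. -/
def shiftCoset {U : Level F} (R : ℕ) [NeZero R] (c : GLFin F ⧸ U.toSubgroup) (u : (ZMod R)ˣ)
    (x : FinAdele F) : GLFin F ⧸ U.toSubgroup :=
  (dia (hatUnit F R u) * unip x) • c

/-- The square of the upper left entry, a unit modulo `R` on `Γ₀(R)`. -/
def sqEntry (R : ℕ) (γ : SL(2, ℤ)) (hγ : γ ∈ Gamma0 R) : (ZMod R)ˣ :=
  Units.mkOfMulEqOne (((γ 0 0 : ℤ) : ZMod R) ^ 2) (((γ 1 1 : ℤ) : ZMod R) ^ 2) (by
    have hdet : γ 0 0 * γ 1 1 - γ 0 1 * γ 1 0 = 1 := by
      rw [← Matrix.det_fin_two]; exact γ.det_coe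
    have h := congrArg (fun n : ℤ => (n : ZMod R)) hdet
    simp only [Int.cast_sub, Int.cast_mul, Int.cast_one, Gamma0_mem.mp hγ, mul_zero,
      sub_zero] at h
    rw [← mul_pow, h, one_pow])

/-- The action of `Γ₀(R)` on the translated cosets. -/
theorem smul_shiftCoset {U : Level F} {M R : ℕ} [NeZero R] {c : GLFin F ⧸ U.toSubgroup}
    (hfix : ∀ h : GLFin F, IsFixing M h → h • c = c) {x : FinAdele F} (hx : IsShift M R x)
    {γ : SL(2, ℤ)} (hγ : γ ∈ Gamma0 R) (u : (ZMod R)ˣ) :
    glIncl F (slToGL F γ) • shiftCoset R c u x = shiftCoset R c (sqEntry R γ hγ * u) x := by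
  set u' := sqEntry R γ hγ * u with hu'
  set a : ℤ := γ 0 0 with ha
  set d : ℤ := γ 1 1 with hd
  set b : ℤ := γ 0 1 with hb
  set e : ℤ := γ 1 0 with he
  have hdet : a * d - b * e = 1 := by
    rw [ha, hd, hb, he, ← Matrix.det_fin_two]; exact γ.det_coe
  have he0 : (e : ZMod R) = 0 := Gamma0_mem.mp hγ
  have had : (a : ZMod R) * (d : ZMod R) = 1 := by
    have h := congrArg (fun n : ℤ => (n : ZMod R)) hdet
    simpa [he0] using h
  let α : (ZMod R)ˣ := Units.mkOfMulEqOne (a : ZMod R) (d : ZMod R) had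
  set zu : (FinAdele F)ˣ := hatUnit F R α with hzu
  set ûu : (FinAdele F)ˣ := hatUnit F R u
  set ûu' : (FinAdele F)ˣ := hatUnit F R u'
  -- the element fixing `c`
  set h : GLFin F := (unip x)⁻¹ * ((dia ûu')⁻¹ * (scalarFin F zu * glIncl F (slToGL F γ)) *
    dia ûu) * unip x with hh
  have hux : (unip x)⁻¹ = unip (-x) := (AddChar.map_neg_eq_inv _ x).symm
  have hγinv : (slToGL F γ)⁻¹ = slToGL F γ⁻¹ := (map_inv _ _).symm
  have hval : h.val = !![(zu : FinAdele F) * a * ↑ûu'⁻¹ * ûu - zu * e * ûu * x,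
      ((zu : FinAdele F) * a * ↑ûu'⁻¹ * ûu - zu * d) * x + zu * b * ↑ûu'⁻¹ -
        zu * e * ûu * x * x;
      (zu : FinAdele F) * e * ûu, zu * e * ûu * x + zu * d] := by
    rw [← conj_entries]
    have hS : (scalarFin F zu * glIncl F (slToGL F γ)).val =
        (zu : FinAdele F) • !![(a : FinAdele F), b; e, d] := by
      ext i j
      fin_cases i <;> fin_cases j <;>
        simp [scalarFin, glIncl_slToGL_apply, Matrix.scalar_apply, ha, hb, hd, he]
    simp only [hh, hux, Units.val_mul, hS]
    rfl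
  have hinv : h⁻¹ = (unip x)⁻¹ * ((dia ûu)⁻¹ * (scalarFin F zu⁻¹ * glIncl F (slToGL F γ⁻¹)) *
      dia ûu') * unip x := by
    have hX : (scalarFin F zu * glIncl F (slToGL F γ))⁻¹ =
        scalarFin F zu⁻¹ * glIncl F (slToGL F γ⁻¹) := by
      rw [_root_.mul_inv_rev, ← map_inv (glIncl F), hγinv, ← map_inv (scalarFin F),
        ← scalarFin_comm]
    rw [hh, ← hX]
    group
  have hval' : (h⁻¹).val = !![(↑zu⁻¹ : FinAdele F) * d * ↑ûu⁻¹ * ûu' - ↑zu⁻¹ * (-e) * ûu' * x,
      ((↑zu⁻¹ : FinAdele F) * d * ↑ûu⁻¹ * ûu' - ↑zu⁻¹ * a) * x + ↑zu⁻¹ * (-b) * ↑ûu⁻¹ -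
        ↑zu⁻¹ * (-e) * ûu' * x * x;
      (↑zu⁻¹ : FinAdele F) * (-e) * ûu', ↑zu⁻¹ * (-e) * ûu' * x + ↑zu⁻¹ * a] := by
    rw [hinv, ← conj_entries]
    have hS : (scalarFin F zu⁻¹ * glIncl F (slToGL F γ⁻¹)).val =
        (↑zu⁻¹ : FinAdele F) • !![(d : FinAdele F), -(b : FinAdele F); -(e : FinAdele F), a] := by
      ext i j
      fin_cases i <;> fin_cases j <;>
        simp [scalarFin, glIncl_slToGL_apply, Matrix.scalar_apply, ha, hb, hd, he,
          Matrix.SpecialLinearGroup.coe_inv, Matrix.adjugate_fin_two, -map_inv]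
    simp only [hux, Units.val_mul, hS]
    rfl
  -- the congruences
  have hzu' : CongMod R ((zu : FinAdele F) - (a : FinAdele F)) := congMod_hatUnit R α rfl
  have hu0 : CongMod R ((ûu : FinAdele F) - (((u : ZMod R).val : ℤ) : FinAdele F)) :=
    congMod_hatUnit R u (by rw [Int.cast_natCast, ZMod.natCast_zmod_val])
  have hu1 : CongMod R ((ûu' : FinAdele F) - ((a ^ 2 * ((u : ZMod R).val : ℤ) : ℤ) : FinAdele F)) :=
    congMod_hatUnit R u' (by
      rw [hu', Units.val_mul, sqEntry, Units.val_mkOfMulEqOne]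
      push_cast
      rw [ZMod.natCast_zmod_val])
  have hedvd : CongMod R (e : FinAdele F) :=
    congMod_intCast ((ZMod.intCast_zmod_eq_zero_iff_dvd e R).mp he0)
  have had' : CongMod R ((a : FinAdele F) * (d : FinAdele F) - 1) := by
    rw [show (a : FinAdele F) * (d : FinAdele F) - 1 = ((a * d - 1 : ℤ) : FinAdele F) by
      push_cast; ring]
    exact congMod_intCast ((ZMod.intCast_zmod_eq_zero_iff_dvd _ R).mp
      (by push_cast; rw [had, sub_self]))
  have key : CongMod R ((zu : FinAdele F) * (a : FinAdele F) * (ûu : FinAdele F) -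
      (ûu' : FinAdele F)) := by
    have h := (((hzu'.mul_right (intCast_mem _ a)).mul_right (hatUnit_mem R u)).add
      (hu0.mul_left (intCast_mem _ (a * a)))).sub hu1
    push_cast at h ⊢
    convert h using 1
    ring
  have k₁ : CongMod R ((zu : FinAdele F) * (d : FinAdele F) - 1) := by
    have h := (hzu'.mul_right (intCast_mem _ d)).add had'
    convert h using 1
    ring
  have zi := hatUnit_inv_mem (F := F) R α
  have ui := hatUnit_inv_mem (F := F) R u
  have ui' := hatUnit_inv_mem (F := F) R u'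
  have k₀ : CongMod R ((zu : FinAdele F) * (a : FinAdele F) * (↑ûu'⁻¹ : FinAdele F) *
      (ûu : FinAdele F) - 1) := by
    have h := key.mul_right ui'
    rw [sub_mul, Units.mul_inv] at h
    convert h using 1
    ring
  have k₁' : CongMod R ((↑zu⁻¹ : FinAdele F) * (a : FinAdele F) - 1) := by
    have h := hzu'.neg.mul_left zi
    rw [neg_sub, mul_sub, Units.inv_mul] at h
    exact h
  have k₀' : CongMod R ((↑zu⁻¹ : FinAdele F) * (d : FinAdele F) * (↑ûu⁻¹ : FinAdele F) *
      (ûu' : FinAdele F) - 1) := by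
    have h := (((key.neg.mul_left zi).mul_right (intCast_mem _ d)).mul_right ui).add had'
    convert h using 1
    linear_combination ((a : FinAdele F) * d) * (Units.inv_mul zu) +
      ((↑zu⁻¹ : FinAdele F) * zu * a * d) * (Units.mul_inv ûu)
  have hfixh : IsFixing M h := by
    obtain ⟨i₁, c₀, c₁, c₂⟩ := conj_entries_integral (b := (b : FinAdele F))
      (d := (d : FinAdele F)) hx (hatUnit_mem R α) ui' (hatUnit_mem R u) (intCast_mem _ b)
      (intCast_mem _ d) hedvd k₀ k₁
    obtain ⟨i₂, -, -, -⟩ := conj_entries_integral (b := -(b : FinAdele F))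
      (d := (a : FinAdele F)) hx zi ui (hatUnit_mem R u') (neg_mem (intCast_mem _ b))
      (intCast_mem _ a) hedvd.neg k₀' k₁'
    refine ⟨fun i j => hval ▸ i₁ i j, fun i j => hval' ▸ i₂ i j, ?_, ?_, ?_⟩
    · rw [hval]; simpa using c₀
    · rw [hval]; simpa using c₁
    · rw [hval]; simpa using c₂
  have hprod : glIncl F (slToGL F γ) * (dia ûu * unip x) =
      scalarFin F zu⁻¹ * (dia ûu' * unip x * h) := by
    rw [hh, map_inv]
    group
  rw [shiftCoset, shiftCoset, ← mul_smul, hprod, mul_smul, Whittaker.scalarFin_smul, mul_smul,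
    hfix h hfixh]

/-! ### `ℍ` inside hyperbolic space -/

variable (F) in
/-- The point of `H3 ^ places` above `τ`. -/
def planePt (τ : ℍ) : InfinitePlace F → H3 :=
  Whittaker.ptAt (fun _ => (τ.re : ℂ)) (fun _ => τ.im)

omit [NumberField F] in
theorem glEmb_slToGL_apply (w : InfinitePlace F) (γ : SL(2, ℤ)) (i j : Fin 2) :
    (glEmb F w (slToGL F γ)).val i j = ((γ i j : ℤ) : ℂ) := by
  show w.embedding ((γ i j : ℤ) : F) = _
  rw [map_intCast]

omit [NumberField F] in
/-- The action of `SL₂(ℤ)` commutes with the embedding of the upper half plane. -/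
theorem glEmb_smul_planePt (w : InfinitePlace F) (γ : SL(2, ℤ)) (τ : ℍ) :
    glEmb F w (slToGL F γ) • planePt F τ w = planePt F (γ • τ) w := by
  set a : ℤ := γ 0 0 with ha
  set b : ℤ := γ 0 1 with hb
  set c : ℤ := γ 1 0 with hc
  set d : ℤ := γ 1 1 with hd
  have hdetZ : a * d - b * c = 1 := by
    rw [ha, hd, hb, hc, ← Matrix.det_fin_two]; exact γ.det_coe
  have hdet : (a : ℝ) * d - b * c = 1 := by exact_mod_cast hdetZ
  have hm : (glEmb F w (slToGL F γ)).val = !![(a : ℂ), b; c, d] := by
    ext i j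
    fin_cases i <;> fin_cases j <;> simp [glEmb_slToGL_apply, ha, hb, hc, hd]
  have hdetM : (!![(a : ℂ), b; c, d]).det = 1 := by
    rw [Matrix.det_fin_two_of]; exact_mod_cast hdetZ
  set x := τ.re
  set y := τ.im with hy
  have hy0 : 0 < y := τ.im_pos
  set den : ℂ := (c : ℂ) * τ + d with hden
  set num : ℂ := (a : ℂ) * τ + b with hnum
  have hτ : ((γ • τ : ℍ) : ℂ) = num / den := by
    rw [UpperHalfPlane.coe_specialLinearGroup_apply]
    simp [hnum, hden, ha, hb, hc, hd]
  have hD : 0 < Complex.normSq den := by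
    rw [hden, Complex.normSq_apply]
    simp only [Complex.add_re, Complex.mul_re, Complex.intCast_re, Complex.intCast_im,
      UpperHalfPlane.coe_re, UpperHalfPlane.coe_im, zero_mul, sub_zero, Complex.add_im,
      Complex.mul_im, add_zero]
    by_cases hc0 : c = 0
    · have hd0 : (d : ℝ) ≠ 0 := fun h0 => by simp [hc0, h0] at hdet
      have := mul_self_pos.mpr hd0
      simpa [hc0] using this
    · have h2 := mul_self_pos.mpr (mul_ne_zero (Int.cast_ne_zero.mpr hc0) hy0.ne' :
        (c : ℝ) * y ≠ 0)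
      nlinarith [mul_self_nonneg ((c : ℝ) * x + d)]
  have him : (γ • τ).im = y / Complex.normSq den := by
    rw [← UpperHalfPlane.coe_im, hτ, Complex.div_im]
    simp only [hnum, hden, Complex.add_re, Complex.mul_re, Complex.intCast_re, Complex.intCast_im,
      UpperHalfPlane.coe_re, UpperHalfPlane.coe_im, zero_mul, sub_zero, Complex.add_im,
      Complex.mul_im, add_zero]
    rw [div_sub_div_same]
    congr 1
    linear_combination y * hdet
  have hre : (γ • τ).re =
      (((a : ℝ) * x + b) * (c * x + d) + a * c * y ^ 2) / Complex.normSq den := by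
    rw [← UpperHalfPlane.coe_re, hτ, Complex.div_re]
    simp only [hnum, hden, Complex.add_re, Complex.mul_re, Complex.intCast_re, Complex.intCast_im,
      UpperHalfPlane.coe_re, UpperHalfPlane.coe_im, zero_mul, sub_zero, Complex.add_im,
      Complex.mul_im, add_zero]
    rw [← add_div]
    congr 1
    ring
  have hnsq : Complex.normSq den = ((c : ℝ) * x + d) ^ 2 + c ^ 2 * y ^ 2 := by
    rw [hden, Complex.normSq_apply]
    simp only [Complex.add_re, Complex.mul_re, Complex.intCast_re, Complex.intCast_im,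
      UpperHalfPlane.coe_re, UpperHalfPlane.coe_im, zero_mul, sub_zero, Complex.add_im,
      Complex.mul_im, add_zero]
    ring
  rw [hnsq] at hD him hre
  set D := ((c : ℝ) * x + d) ^ 2 + (c : ℝ) ^ 2 * y ^ 2 with hDdef
  set X := ((a : ℝ) * x + b) * (c * x + d) + a * c * y ^ 2 with hXdef
  have hkey : D * ((a * x + b) ^ 2 + a ^ 2 * y ^ 2) = X ^ 2 + y ^ 2 := by
    rw [hDdef, hXdef]
    linear_combination y ^ 2 * (((a : ℝ) * d - b * c) + 1) * hdet
  have e00 : ((a * x + b) ^ 2 + a ^ 2 * y ^ 2) / y =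
      ((γ • τ).re ^ 2 + (γ • τ).im ^ 2) / (γ • τ).im := by
    rw [hre, him, div_pow, div_pow, ← add_div, ← hkey, div_div_eq_mul_div]
    field_simp
  have e01 : X / y = (γ • τ).re / (γ • τ).im := by
    rw [hre, him, div_div_div_cancel_right₀ hD.ne']
  have e11 : D / y = (γ • τ).im⁻¹ := by
    rw [him, inv_div]
  rw [hXdef] at e01
  rw [hDdef] at e11
  refine H3.ext ?_
  rw [H3.smul_mat, planePt, planePt, Whittaker.ptAt, Whittaker.ptAt, H3.mat_pt _ τ.im_pos,
    H3.mat_pt _ (γ • τ).im_pos, hm, hdetM]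
  generalize γ • τ = τ' at e00 e01 e11 ⊢
  have f00 := congrArg Complex.ofReal e00
  have f01 := congrArg Complex.ofReal e01
  have f11 := congrArg Complex.ofReal e11
  simp only [Complex.ofReal_div, Complex.ofReal_add, Complex.ofReal_mul, Complex.ofReal_pow,
    Complex.ofReal_inv, Complex.ofReal_intCast, x, y] at f00 f01 f11
  ext i j
  fin_cases i <;> fin_cases j <;>
    simp [Fin.sum_univ_two, Matrix.conjTranspose_apply, Matrix.vecMul,
      dotProduct, Complex.normSq_ofReal, Complex.conj_ofReal]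
  · linear_combination f00
  · linear_combination f01
  · linear_combination f01
  · linear_combination f11

/-- The action of `SL₂(ℤ)` on the real points. -/
theorem smul_planePt {U : Level F} (γ : SL(2, ℤ)) (τ : ℍ) (c : GLFin F ⧸ U.toSubgroup) :
    slToGL F γ • ((planePt F τ, c) : Y U) =
      (planePt F (γ • τ), glIncl F (slToGL F γ) • c) :=
  Prod.ext (funext fun w => (smul_fst U _ _ w).trans (glEmb_smul_planePt w γ τ)) (smul_snd U _ _)

end Fermat.Agent.LT.Asai

end
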