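import Fermat.Agent.LT.Asai.Restrict.ConstTerm

/-!
# The base coset `dia t` and change of modulus with the same primes

For an idele `t` equal to `1 / M` at the places dividing `M` and to `1` elsewhere the coset of
`dia t` is fixed by the conditions `IsFixing M`. The coefficients `asaiCoeff M` only depend on the
set of primes dividing `M`.
-/

set_option autoImplicit false

noncomputable section

open NumberField WithZero Fermat.Agent.LT.Places

namespace Fermat.Agent.LT.Asai

variable {F : Type*} [Field F] [NumberField F]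

/-- Coprimality, hence the coefficient, depends only on the primes of the modulus. -/
theorem asaiCoeff_congr {M M' : ℕ} (lam : Ideal (𝓞 F) → ℂ)
    (h : ∀ p : ℕ, p.Prime → (p ∣ M ↔ p ∣ M')) : asaiCoeff M lam = asaiCoeff M' lam := by
  funext n
  refine if_congr (and_congr_right fun _ => ?_) rfl rfl
  constructor <;> intro hc <;> refine Nat.coprime_of_dvd fun p hp hpn hpM => ?_
  · exact Nat.not_coprime_of_dvd_of_dvd hp.one_lt hpn ((h p hp).mpr hpM) hc
  · exact Nat.not_coprime_of_dvd_of_dvd hp.one_lt hpn ((h p hp).mp hpM) hc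

/-- Conjugation by `dia t` carries the fixing conditions into the principal level. -/
theorem fixed_dia {N M : ℕ} (hN : 0 < N) (hM : 0 < M) (hNM : N ∣ M) {t : (FinAdele F)ˣ}
    (hbad : ∀ v : FinPlace F, (M : 𝓞 F) ∈ v.asIdeal →
      toPlace v ((M : FinAdele F) * (t : FinAdele F)) = 1)
    (hgoodt : ∀ v : FinPlace F, (M : 𝓞 F) ∉ v.asIdeal → toPlace v (t : FinAdele F) = 1)
    (h : GLFin F) (hh : IsFixing M h) :
    h • ((dia t : GLFin F) : GLFin F ⧸ (Level.principal F N hN).toSubgroup) =
      ((dia t : GLFin F) : GLFin F ⧸ (Level.principal F N hN).toSubgroup) := by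
  refine (QuotientGroup.eq.mpr ?_).symm
  show (dia t)⁻¹ * (h * dia t) ∈ _
  refine ⟨1, _, ?_, (by rw [map_one, one_mul])⟩
  refine IsPrincipal.of_dvd hNM ((isPrincipal_iff hM).2 fun v i j => ?_)
  set s := toPlace v (t : FinAdele F)
  have hs0 : s ≠ 0 := toPlace_units_ne_zero v t
  have hinv : ((dia t)⁻¹ * (h * dia t) : GLFin F)⁻¹ = (dia t)⁻¹ * (h⁻¹ * dia t) := by group
  have key : ∀ (k : GLFin F) (a b : Fin 2),
      toPlace v (((dia t)⁻¹ * (k * dia t) : GLFin F).val a b) =
        !![toPlace v (k.val 0 0), s⁻¹ * toPlace v (k.val 0 1);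
          toPlace v (k.val 1 0) * s, toPlace v (k.val 1 1)] a b := fun k a b => by
    simp only [Units.val_mul, Matrix.mul_apply, Fin.sum_univ_two, dia_entries, dia_inv_entries,
      map_add, map_mul]
    fin_cases a <;> fin_cases b <;> simp [s]
    field_simp
    exact mul_div_cancel_left₀ _ hs0
  have hMv : ∀ x : FinAdele F, CongMod M x → Valued.v (toPlace v x) ≤ v.valuation F (M : F) := by
    rintro x ⟨a, ha, rfl⟩
    rw [map_mul, map_mul]
    exact (mul_le_mul' (le_of_eq (placeVal_natCast v M)) (placeVal_le_one v ha)).trans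
      (le_of_eq (mul_one _))
  have hint : ∀ x ∈ integralAdele F, Valued.v (toPlace v x) ≤ 1 := fun x hx => placeVal_le_one v hx
  by_cases hv : (M : 𝓞 F) ∈ v.asIdeal
  · have hs : s = (toPlace v (M : FinAdele F))⁻¹ := by
      refine eq_inv_of_mul_eq_one_right ?_
      rw [← map_mul]
      exact hbad v hv
    have hMval : Valued.v (toPlace v (M : FinAdele F)) = v.valuation F (M : F) :=
      placeVal_natCast v M
    have hsv : Valued.v s⁻¹ = v.valuation F (M : F) := by rw [hs, inv_inv, hMval]
    have hlow : ∀ x : FinAdele F, CongMod (M ^ 2) x →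
        Valued.v (toPlace v x * s) ≤ v.valuation F (M : F) := by
      rintro x ⟨a, ha, rfl⟩
      rw [hs, Nat.cast_pow, map_mul (toPlace v), map_pow (toPlace v),
        show toPlace v (M : FinAdele F) ^ 2 * toPlace v a *
        (toPlace v (M : FinAdele F))⁻¹ = toPlace v (M : FinAdele F) * toPlace v a by
          have : toPlace v (M : FinAdele F) ≠ 0 := fun h0 => hs0 (by rw [hs, h0, inv_zero])
          field_simp, map_mul, hMval]
      exact (mul_le_mul' le_rfl (hint a ha)).trans (le_of_eq (mul_one _))
    have hdet : ∀ k : GLFin F, (∀ i j, k.val i j ∈ integralAdele F) →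
        (∀ i j, (k⁻¹ : GLFin F).val i j ∈ integralAdele F) → CongMod M (k.val 0 0 - 1) →
        CongMod M (k.val 1 1 - 1) → CongMod (M ^ 2) (k.val 1 0) →
        CongMod M ((k⁻¹ : GLFin F).val 0 0 - 1) ∧ CongMod M ((k⁻¹ : GLFin F).val 1 1 - 1) ∧
          CongMod (M ^ 2) ((k⁻¹ : GLFin F).val 1 0) := by
      intro k hk hk' h0 h1 h2
      have e : (k⁻¹ : GLFin F).val * k.val = 1 := by
        rw [← Units.val_mul, inv_mul_cancel, Units.val_one]
      have e' : k.val * (k⁻¹ : GLFin F).val = 1 := by
        rw [← Units.val_mul, mul_inv_cancel, Units.val_one]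
      have e00 := congrFun (congrFun e 0) 0
      have e11 := congrFun (congrFun e' 1) 1
      have e10 := congrFun (congrFun e 1) 0
      simp only [Matrix.mul_apply, Fin.sum_univ_two, Matrix.one_apply, if_pos, one_ne_zero,
        if_false] at e00 e11 e10
      set K := k⁻¹
      have hM2 : M ∣ M ^ 2 := dvd_pow_self M two_ne_zero
      -- the lower left entry of the inverse, first modulo `M`, then modulo `M ^ 2`
      have c0 : CongMod M (K.val 0 0 - 1) := by
        rw [show K.val 0 0 - 1 = -(K.val 0 0 * (k.val 0 0 - 1)) - K.val 0 1 * k.val 1 0 by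
          linear_combination e00]
        exact ((h0.mul_left (hk' 0 0)).neg).sub ((h2.of_dvd hM2).mul_left (hk' 0 1))
      have c1 : CongMod M (K.val 1 1 - 1) := by
        rw [show K.val 1 1 - 1 = -((k.val 1 1 - 1) * K.val 1 1) - k.val 1 0 * K.val 0 1 by
          linear_combination e11]
        exact ((h1.mul_right (hk' 1 1)).neg).sub ((h2.of_dvd hM2).mul_right (hk' 0 1))
      refine ⟨c0, c1, ?_⟩
      have d1 : CongMod M (K.val 1 0) := by
        rw [show K.val 1 0 = -(K.val 1 0 * (k.val 0 0 - 1)) - K.val 1 1 * k.val 1 0 by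
          linear_combination e10]
        exact ((h0.mul_left (hk' 1 0)).neg).sub ((h2.of_dvd hM2).mul_left (hk' 1 1))
      obtain ⟨a, ha, hab⟩ := d1
      obtain ⟨b, hb, hb0⟩ := h0
      rw [show K.val 1 0 = -(K.val 1 0 * (k.val 0 0 - 1)) - K.val 1 1 * k.val 1 0 by
          linear_combination e10]
      refine CongMod.sub ⟨-(a * b), neg_mem (mul_mem ha hb), ?_⟩ (h2.mul_left (hk' 1 1))
      rw [hab, hb0]
      push_cast
      ring
    obtain ⟨i0, i1, i2⟩ := hdet h hh.integral hh.integral_inv hh.diag₀ hh.diag₁ hh.lower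
    rw [glPlace_apply, glPlace_apply, hinv, key, key]
    fin_cases i <;> fin_cases j <;> simp only [Matrix.one_apply, Fin.zero_eta, Fin.mk_one,
      Matrix.of_apply, Matrix.cons_val', Matrix.cons_val_zero, Matrix.cons_val_one,
      Matrix.cons_val_fin_one, if_pos, zero_ne_one, one_ne_zero, if_false, sub_zero]
    · constructor
      · simpa using hMv _ hh.diag₀
      · simpa using hMv _ i0
    · constructor <;> rw [map_mul, hsv]
      · exact (mul_le_mul' le_rfl (hint _ (hh.integral 0 1))).trans (le_of_eq (mul_one _))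
      · exact (mul_le_mul' le_rfl (hint _ (hh.integral_inv 0 1))).trans (le_of_eq (mul_one _))
    · exact ⟨hlow _ hh.lower, hlow _ i2⟩
    · constructor
      · simpa using hMv _ hh.diag₁
      · simpa using hMv _ i1
  · have hs : s = 1 := hgoodt v hv
    have hM1 : v.valuation F (M : F) = 1 := by
      rw [valuation_eq_exp_placeExp v hM, (placeExp_eq_zero_iff v hM).mpr hv]
      simp
    rw [glPlace_apply, glPlace_apply, hinv, key, key, hM1]
    have b0 := fun a b => hint _ (hh.integral a b)
    have b1 := fun a b => hint _ (hh.integral_inv a b)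
    have hsub : ∀ x : v.adicCompletion F, Valued.v x ≤ 1 → Valued.v (x - 1) ≤ 1 := fun x hx =>
      (Valued.v.map_sub _ _).trans (max_le hx (le_of_eq (map_one _)))
    fin_cases i <;> fin_cases j <;> simp [hs, b0, b1, hsub, -Matrix.coe_units_inv]

/-- `dia t` is integral at the good places. -/
theorem dia_mem_intGroup {M : ℕ} {t : (FinAdele F)ˣ}
    (hgoodt : ∀ v : FinPlace F, (M : 𝓞 F) ∉ v.asIdeal → toPlace v (t : FinAdele F) = 1)
    (v : FinPlace F) (hv : (M : 𝓞 F) ∉ v.asIdeal) : glPlace v (dia t : GLFin F) ∈ intGroup v := by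
  have : glPlace v (dia t : GLFin F) = 1 := Units.ext (Matrix.ext fun i j => by
    rw [glPlace_apply, dia_entries]
    fin_cases i <;> fin_cases j <;> simp [hgoodt v hv])
  rw [this]
  exact one_mem _

end Fermat.Agent.LT.Asai

end
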