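import Fermat.Agent.LT.Asai.Restrict.Field
import Fermat.Agent.LT.Asai.Restrict.Coset
import Fermat.Agent.LT.Whittaker.Local
import Mathlib.MeasureTheory.Integral.IntervalIntegral.Basic
import Mathlib.MeasureTheory.Integral.DominatedConvergence

/-!
# The mean along horizontal lines of the real points

At a coset fixed by the integral unipotents only the coefficients at `n / √(-3)`, `n : ℤ`, survive
the integration over `x ∈ [0, 1)`.
-/

set_option autoImplicit false

noncomputable section

open MeasureTheory
open scoped UpperHalfPlane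
open NumberField (InfinitePlace)

namespace Fermat.Agent.LT.Asai

/-- The integral of `x ↦ e (k x)` over `[0, 1)`. -/
theorem integral_exp_int (k : ℤ) :
    ∫ x in Set.Ico (0 : ℝ) 1, Complex.exp ((2 * Real.pi * (k * x) : ℝ) * Complex.I) =
      if k = 0 then 1 else 0 := by
  rw [integral_Ico_eq_integral_Ioc, ← intervalIntegral.integral_of_le (zero_le_one' ℝ)]
  split_ifs with h
  · simp [h]
  · have h2 : (2 * Real.pi * k * Complex.I : ℂ) ≠ 0 := by simp [h, Real.pi_ne_zero]
    have e : ∀ x : ℝ, Complex.exp ((2 * Real.pi * (k * x) : ℝ) * Complex.I) =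
        Complex.exp ((2 * Real.pi * k * Complex.I : ℂ) * x) := fun x => by
      congr 1; push_cast; ring
    simp only [e]
    rw [integral_exp_mul_complex h2]
    simp only [Complex.ofReal_one, mul_one, Complex.ofReal_zero, mul_zero, Complex.exp_zero]
    rw [show (2 * Real.pi * k * Complex.I : ℂ) = (k : ℂ) * (2 * Real.pi * Complex.I) by ring,
      Complex.exp_int_mul_two_pi_mul_I, sub_self, zero_div]

variable {U : Level EisField} {φ : Y U → ℂ}

theorem pairing_real (ξ : EisField) (x : ℝ) :
    Whittaker.pairing ξ (fun _ : InfinitePlace EisField => (x : ℂ)) =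
      x * (Algebra.trace ℚ EisField ξ : ℝ) := by
  rw [Whittaker.pairing, Whittaker.trace_eq_sum_places, Finset.mul_sum]
  refine Finset.sum_congr rfl fun w _ => ?_
  simp [Complex.mul_re]
  ring

theorem coef_unip_smul (hφ : Whittaker.IsCuspEigen φ) {c : GLFin EisField ⧸ U.toSubgroup}
    (hc : ∀ v ∈ integralAdele EisField, unip v • c = c) (β : NumberField.RingOfIntegers EisField)
    {ξ : EisField} (hξ : Whittaker.coef φ c ξ ≠ 0) :
    ∃ k : ℤ, Algebra.trace ℚ EisField (ξ * β) = k := by
  have h := Whittaker.coef_glIncl_unip hφ c (β : EisField) ξ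
  rw [Whittaker.glIncl_unip, hc _ (Reduction.finIncl_mem_of_isIntegral β)] at h
  exact (Whittaker.psiGlobal_eq_one_iff _).1 ((mul_eq_right₀ hξ).mp h.symm)

/-- The integral element `eisEta` of the ring of integers. -/
def eisEtaInt : NumberField.RingOfIntegers EisField := ⟨eisEta, isIntegral_eisEta⟩

theorem exists_int_of_coef_ne_zero (hφ : Whittaker.IsCuspEigen φ)
    {c : GLFin EisField ⧸ U.toSubgroup} (hc : ∀ v ∈ integralAdele EisField, unip v • c = c)
    {ξ : EisField} (hξ : Whittaker.coef φ c ξ ≠ 0) (h0 : Algebra.trace ℚ EisField ξ = 0) :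
    ∃ n : ℤ, ξ = (n : EisField) * eisDelta := by
  obtain ⟨q, rfl⟩ := exists_ratCast_mul_of_trace_eq_zero h0
  obtain ⟨k, hk⟩ := coef_unip_smul hφ hc eisEtaInt hξ
  refine ⟨k, ?_⟩
  rw [show ((eisEtaInt : NumberField.RingOfIntegers EisField) : EisField) = eisEta from rfl,
    mul_assoc, trace_ratCast_mul, trace_eisDelta_mul_eisEta, mul_one] at hk
  rw [hk, Rat.cast_intCast]

/-- The Whittaker function at the one infinite place of the Eisenstein field. -/
theorem bessel_apply (ξ : EisField) (t : InfinitePlace EisField → ℝ) :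
    Whittaker.bessel ξ t = (default : InfinitePlace EisField) ξ * t default *
      Whittaker.besselK (4 * Real.pi * ((default : InfinitePlace EisField) ξ * t default)) := by
  rw [Whittaker.bessel, Fintype.prod_unique]

/-- **The mean along a horizontal line.** -/
theorem integral_horizontal (hφ : Whittaker.IsCuspEigen φ) {c : GLFin EisField ⧸ U.toSubgroup}
    (hc : ∀ v ∈ integralAdele EisField, unip v • c = c) {y : ℝ} (hy : 0 < y) :
    ∫ x in Set.Ico (0 : ℝ) 1,
        φ (Whittaker.ptAt (fun _ : InfinitePlace EisField => (x : ℂ)) (fun _ => y), c) =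
      ∑' n : ℤ, Whittaker.coef φ c ((n : EisField) * eisDelta) *
        (Whittaker.bessel ((n : EisField) * eisDelta) (fun _ => y) : ℂ) := by
  classical
  have : Countable EisField :=
    (Module.finBasis ℚ EisField).equivFun.injective.countable
  have ht : ∀ w : InfinitePlace EisField, 0 < (fun _ => y : InfinitePlace EisField → ℝ) w :=
    fun _ => hy
  set B : EisField → ℂ := fun ξ => Whittaker.coef φ c ξ *
    (Whittaker.bessel ξ (fun _ => y) : ℂ) with hB
  set G : EisField → ℝ → ℂ := fun ξ x => Whittaker.coef φ c ξ *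
    Whittaker.expChar ξ (fun _ => (x : ℂ)) * (Whittaker.bessel ξ (fun _ => y) : ℂ) with hG
  have hexp := (Whittaker.isExpansion_coef hφ c).2
  have hnorm : ∀ ξ x, ‖G ξ x‖ = ‖B ξ‖ := fun ξ x => by
    simp only [hG, hB, norm_mul, Whittaker.norm_expChar, mul_one]
  have hsumB : Summable fun ξ => ‖B ξ‖ := by
    have h := (hexp (fun _ => ((0 : ℝ) : ℂ)) _ ht).summable.norm
    exact h.congr fun ξ => hnorm ξ 0
  have hcont : ∀ ξ, Continuous (G ξ) := fun ξ => by
    simp only [hG, Whittaker.expChar, pairing_real]
    fun_prop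
  have hint : ∀ ξ, Integrable (G ξ) (volume.restrict (Set.Ico (0 : ℝ) 1)) := fun ξ =>
    Integrable.of_bound (μ := volume.restrict (Set.Ico (0 : ℝ) 1)) (hcont ξ).aestronglyMeasurable
      ‖B ξ‖ (Filter.Eventually.of_forall fun x => (hnorm ξ x).le)
  have hswap := integral_tsum_of_summable_integral_norm (μ := volume.restrict (Set.Ico (0 : ℝ) 1))
    hint (by
      simp only [hnorm]
      simpa using hsumB)
  have hpt : ∀ x : ℝ, φ (Whittaker.ptAt (fun _ : InfinitePlace EisField => (x : ℂ))
      (fun _ => y), c) = ∑' ξ, G ξ x := fun x => ((hexp _ _ ht).tsum_eq).symm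
  simp only [hpt]
  rw [← hswap]
  have hterm : ∀ ξ, ∫ x in Set.Ico (0 : ℝ) 1, G ξ x =
      if Algebra.trace ℚ EisField ξ = 0 then B ξ else 0 := by
    intro ξ
    rcases eq_or_ne (Whittaker.coef φ c ξ) 0 with h0 | h0
    · simp [hG, hB, h0]
    obtain ⟨k, hk⟩ := coef_unip_smul hφ hc 1 h0
    rw [show ((1 : NumberField.RingOfIntegers EisField) : EisField) = 1 from rfl, mul_one] at hk
    have e : ∀ x : ℝ, G ξ x =
        B ξ * Complex.exp ((2 * Real.pi * (k * x) : ℝ) * Complex.I) := fun x => by
      simp only [hG, hB, Whittaker.expChar, pairing_real, hk, Rat.cast_intCast]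
      rw [mul_right_comm, mul_comm (k : ℝ) x]
    simp only [e]
    rw [integral_const_mul, integral_exp_int, hk]
    simp only [Int.cast_eq_zero, mul_ite, mul_one, mul_zero]
  simp only [hterm]
  have hinj : Function.Injective fun n : ℤ => (n : EisField) * eisDelta := fun a b h =>
    Int.cast_injective (mul_right_cancel₀ eisDelta_ne_zero h)
  rw [← hinj.tsum_eq (f := fun ξ => if Algebra.trace ℚ EisField ξ = 0 then B ξ else 0)]
  · refine tsum_congr fun n => ?_
    rw [show (n : EisField) = ((n : ℚ) : EisField) by rw [Rat.cast_intCast],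
      if_pos (by rw [trace_ratCast_mul, trace_eisDelta, mul_zero])]
  · intro ξ hξ
    rw [Function.mem_support] at hξ
    split_ifs at hξ with h
    · obtain ⟨n, hn⟩ := exists_int_of_coef_ne_zero hφ hc (left_ne_zero_of_mul hξ) h
      exact ⟨n, hn.symm⟩
    · exact absurd rfl hξ

end Fermat.Agent.LT.Asai

end
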