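import Fermat.Agent.LT.Asai.Restrict.Coeff
import Fermat.Agent.LT.Whittaker.Hecke
import Mathlib.RingTheory.DedekindDomain.Factorization
import Mathlib.RingTheory.Ideal.Norm.AbsNorm
import Fermat.Agent.LT.Asai.UpperBound.Local

/-!
# Norms of the places dividing an integer, and normalised Hecke coefficients

`∏ N v ^ (ord_v n) = n ^ [F : ℚ]`, and the product of the Hecke coefficients at the places dividing
`n` is `asaiCoeff M lam n / √(n ^ [F : ℚ])`.
-/

set_option autoImplicit false

noncomputable section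

open IsDedekindDomain NumberField WithZero Fermat.Agent.LT.Places

namespace Fermat.Agent.LT.Asai

variable {F : Type*} [Field F] [NumberField F]

theorem placeExp_eq_count (v : FinPlace F) {n : ℕ} (hn : 0 < n) :
    placeExp v n = (Associates.mk v.asIdeal).count
      (Associates.mk (Ideal.span {(n : 𝓞 F)})).factors := by
  refine placeExp_eq v hn ?_
  have hn' : (n : 𝓞 F) ≠ 0 := Nat.cast_ne_zero.mpr hn.ne'
  rw [← map_natCast (algebraMap (𝓞 F) F) n, v.valuation_of_algebraMap, v.intValuation_if_neg hn']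

/-- The product of the norms of the prime powers dividing `n` is `n ^ [F : ℚ]`. -/
theorem prod_absNorm_placeExp {n : ℕ} (hn : 0 < n) {S : Finset (FinPlace F)}
    (hS : ∀ v : FinPlace F, placeExp v n ≠ 0 → v ∈ S) :
    ∏ v ∈ S, Ideal.absNorm v.asIdeal ^ placeExp v n = n ^ Module.finrank ℚ F := by
  have hI : Ideal.span {(n : 𝓞 F)} ≠ 0 := by
    simpa [Ideal.span_singleton_eq_bot] using hn.ne'
  have h := Ideal.finprod_heightOneSpectrum_factorization hI
  rw [finprod_eq_prod_of_mulSupport_subset _ (s := S) fun v hv => hS v fun h0 => hv ?_] at h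
  · have h' := congrArg Ideal.absNorm h
    simp only [map_prod, HeightOneSpectrum.maxPowDividing, map_pow,
      ← placeExp_eq_count _ hn] at h'
    rw [h', ← map_natCast (algebraMap ℤ (𝓞 F)), Ideal.absNorm_span_singleton,
      Algebra.norm_algebraMap, RingOfIntegers.rank, Int.natAbs_pow, Int.natAbs_natCast]
  · show v.maxPowDividing _ = 1
    rw [HeightOneSpectrum.maxPowDividing, ← placeExp_eq_count v hn, h0, pow_zero]

theorem lam_eq_sqrt_mul_asaiEig {lam : Ideal (𝓞 F) → ℂ} {v : FinPlace F}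
    (h : (lam v.asIdeal).im = 0) :
    lam v.asIdeal = ((Real.sqrt (Ideal.absNorm v.asIdeal) * asaiEig lam v : ℝ) : ℂ) := by
  have hpos : (0 : ℝ) < Ideal.absNorm v.asIdeal := by
    exact_mod_cast Nat.pos_of_ne_zero (mt Ideal.absNorm_eq_zero_iff.mp v.ne_bot)
  rw [asaiEig, mul_div_cancel₀ _ (Real.sqrt_pos.mpr hpos).ne']
  exact Complex.ext (by simp) (by simpa using h)

/-- The product of the Hecke coefficients at the places dividing `n`. -/
theorem prod_heckeCoeff {M : ℕ} {lam : Ideal (𝓞 F) → ℂ} {n : ℕ} (hn : 0 < n)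
    (hnM : n.Coprime M) {S : Finset (FinPlace F)}
    (hS : ∀ v : FinPlace F, placeExp v n ≠ 0 → v ∈ S)
    (hreal : ∀ v ∈ S, (lam v.asIdeal).im = 0) :
    ∏ v ∈ S, Whittaker.heckeCoeff (Ideal.absNorm v.asIdeal : ℂ) (lam v.asIdeal) (placeExp v n) =
      ((asaiCoeff M lam n / Real.sqrt ((n : ℝ) ^ Module.finrank ℚ F) : ℝ) : ℂ) := by
  have hpos : ∀ v : FinPlace F, (0 : ℝ) < Ideal.absNorm v.asIdeal := fun v => by
    exact_mod_cast Nat.pos_of_ne_zero (mt Ideal.absNorm_eq_zero_iff.mp v.ne_bot)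
  have e : ∀ v ∈ S, Whittaker.heckeCoeff (Ideal.absNorm v.asIdeal : ℂ) (lam v.asIdeal)
      (placeExp v n) = ((heckeSeq (asaiEig lam v) (placeExp v n) /
        Real.sqrt (Ideal.absNorm v.asIdeal) ^ placeExp v n : ℝ) : ℂ) := fun v hv => by
    rw [← UpperBound.heckeCoeff_eq (hpos v), mul_comm (asaiEig lam v),
      ← lam_eq_sqrt_mul_asaiEig (hreal v hv), Complex.ofReal_natCast]
  rw [Finset.prod_congr rfl e, ← Complex.ofReal_prod, Finset.prod_div_distrib]
  congr 2
  · rw [asaiCoeff, if_pos ⟨hn.ne', hnM⟩]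
    symm
    refine finprod_eq_prod_of_mulSupport_subset _ fun v hv => hS v fun h0 => hv ?_
    simp [h0, heckeSeq]
  · rw [← Nat.cast_pow, ← prod_absNorm_placeExp hn hS, Nat.cast_prod, Real.sqrt_prod]
    · refine Finset.prod_congr rfl fun v _ => ?_
      rw [Nat.cast_pow, eq_comm, Real.sqrt_eq_iff_eq_sq (by positivity) (by positivity), ← pow_mul,
        mul_comm, pow_mul, Real.sq_sqrt (hpos v).le]
    · exact fun v _ => Nat.cast_nonneg _

end Fermat.Agent.LT.Asai

end
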