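import Fermat.Agent.LT.Asai.Unfold

/-!
# The period as an integral against a partition of unity

For a bounded `Γ₀(R)`-invariant function the period is `2 φ(R)` times the integral against any
nonnegative weight whose translates under `Γ₀(R)`, as a subgroup of `SL₂(ℤ)`, sum to one.
-/

set_option autoImplicit false

open MeasureTheory CongruenceSubgroup
open scoped Modular UpperHalfPlane MatrixGroups ENNReal

noncomputable section

namespace Fermat.Agent.LT.Asai

open Fermat.Agent.Petersson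

/-- Right cosets of a subgroup, parametrised by the inverses of the chosen representatives. -/
theorem bijective_mul_out_inv {G : Type*} [Group G] (H : Subgroup G) :
    Function.Bijective fun p : (G ⧸ H) × H => (p.2 : G) * p.1.out⁻¹ := by
  refine ⟨?_, fun g => ?_⟩
  · rintro ⟨q, h⟩ ⟨q', h'⟩ e
    simp only at e
    have hq : q = q' := by
      rw [← Quotient.out_eq' q, ← Quotient.out_eq' q']
      refine QuotientGroup.eq.mpr ?_
      have e' : q.out⁻¹ * q'.out = (h : G)⁻¹ * (h' : G) := by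
        rw [eq_inv_mul_iff_mul_eq, ← mul_assoc, e, inv_mul_cancel_right]
      rw [e']
      exact mul_mem (inv_mem h.2) h'.2
    subst hq
    exact Prod.ext rfl (Subtype.ext (mul_right_cancel e))
  · refine ⟨(QuotientGroup.mk g⁻¹, ⟨g * (QuotientGroup.mk g⁻¹ : G ⧸ H).out, ?_⟩),
      mul_inv_cancel_right _ _⟩
    have h := QuotientGroup.eq.mp (Quotient.out_eq' (QuotientGroup.mk g⁻¹ : G ⧸ H)).symm
    rwa [inv_inv] at h

/-- A family on a product with finite first factor is summed fibre by fibre. -/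
theorem hasSum_prod_of_fintype {α β E : Type*} [Fintype α] [AddCommMonoid E] [TopologicalSpace E]
    [ContinuousAdd E] {f : α × β → E} {a : α → E}
    (h : ∀ q, HasSum (fun b => f (q, b)) (a q)) : HasSum f (∑ q, a q) := by
  classical
  have hf : f = fun p => ∑ q, if p.1 = q then f p else 0 := by
    funext p
    simp
  rw [hf]
  refine hasSum_sum fun q _ => ?_
  have hinj : Function.Injective fun b : β => (q, b) := fun _ _ e => congrArg Prod.snd e
  refine (hinj.hasSum_iff fun p hp => if_neg fun e => hp ⟨p.2, Prod.ext e.symm rfl⟩).mp ?_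
  simpa [Function.comp_def] using h q

variable {R : ℕ} [NeZero R] {Ψ : ℍ → ℂ}

/-- The classes of pairs: a unit times the bottom row of a representative. -/
def resPair (p : (ZMod R)ˣ × (SL(2, ℤ) ⧸ Gamma0 R)) : ZMod R × ZMod R :=
  ((p.1 : ZMod R) * ((p.2.out⁻¹ : SL(2, ℤ)) 1 0 : ZMod R),
    (p.1 : ZMod R) * ((p.2.out⁻¹ : SL(2, ℤ)) 1 1 : ZMod R))

omit [NeZero R] in
/-- The determinant relation of `SL₂(ℤ)` modulo `R`. -/
theorem det_cast (γ : SL(2, ℤ)) :
    (γ 0 0 : ZMod R) * (γ 1 1 : ZMod R) - (γ 0 1 : ZMod R) * (γ 1 0 : ZMod R) = 1 := by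
  have h : γ 0 0 * γ 1 1 - γ 0 1 * γ 1 0 = 1 := by rw [← Matrix.det_fin_two]; exact γ.det_coe
  exact_mod_cast congrArg (fun n : ℤ => (n : ZMod R)) h

omit [NeZero R] in
theorem resPair_injective : Function.Injective (resPair (R := R)) := by
  rintro ⟨u, q⟩ ⟨u', q'⟩ e
  simp only [resPair, Prod.mk.injEq] at e
  obtain ⟨e0, e1⟩ := e
  generalize hγ : q.out⁻¹ = γ at e0 e1
  generalize hγ' : q'.out⁻¹ = γ' at e0 e1
  have hq : q = q' := by
    rw [← Quotient.out_eq' q, ← Quotient.out_eq' q']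
    refine QuotientGroup.eq.mpr ?_
    rw [show q.out⁻¹ * q'.out = γ * γ'⁻¹ by rw [← hγ', ← hγ, inv_inv], Gamma0_mem]
    have e : (γ * γ'⁻¹ : SL(2, ℤ)) 1 0 = γ 1 0 * γ' 1 1 - γ 1 1 * γ' 1 0 := by
      rw [Matrix.SpecialLinearGroup.coe_mul, Matrix.SpecialLinearGroup.coe_inv,
        Matrix.adjugate_fin_two, Matrix.mul_apply, Fin.sum_univ_two]
      simp [sub_eq_add_neg]
    rw [e]
    push_cast
    refine (u.isUnit.mul_right_eq_zero).mp ?_
    linear_combination (γ' 1 1 : ZMod R) * e0 - (γ' 1 0 : ZMod R) * e1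
  subst hq
  obtain rfl : γ = γ' := hγ.symm.trans hγ'
  have hd := det_cast (R := R) γ
  refine Prod.ext (Units.ext ?_) rfl
  linear_combination (γ 0 0 : ZMod R) * e1 - (γ 0 1 : ZMod R) * e0 -
    ((u : ZMod R) - (u' : ZMod R)) * hd

omit [NeZero R] in
theorem exists_resPair {r : ZMod R × ZMod R} (hr : IsGoodRes R r) : ∃ p, resPair p = r := by
  obtain ⟨γ, u, h0, h1⟩ := hr
  obtain ⟨⟨q, h⟩, rfl⟩ := (bijective_mul_out_inv (Gamma0 R)).2 γ
  have h10 : ((h : SL(2, ℤ)) 1 0 : ZMod R) = 0 := Gamma0_mem.mp h.2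
  have hd := det_cast (R := R) (h : SL(2, ℤ))
  simp only [Matrix.SpecialLinearGroup.coe_mul, Matrix.mul_apply, Fin.sum_univ_two,
    Int.cast_add, Int.cast_mul, h10, zero_mul, zero_add] at h0 h1
  rw [h10, mul_zero, sub_zero] at hd
  let v : (ZMod R)ˣ := Units.mkOfMulEqOne _ _ ((mul_comm _ _).trans hd)
  refine ⟨(u⁻¹ * v, q), ?_⟩
  simp only [resPair, v, Units.val_mul, Units.val_mkOfMulEqOne, mul_assoc]
  rw [h0, h1, Units.inv_mul_cancel_left, Units.inv_mul_cancel_left]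

theorem sum_slot [Fintype (SL(2, ℤ) ⧸ Gamma0 R)]
    (hinv : ∀ γ ∈ Gamma0 R, ∀ τ : ℍ, Ψ (γ • τ) = Ψ τ) (τ : ℍ) :
    ∑ r : ZMod R × ZMod R, slot R Ψ r τ =
      (R.totient : ℂ) * ∑ q : SL(2, ℤ) ⧸ Gamma0 R, Ψ (q.out⁻¹ • τ) := by
  classical
  rw [← Finset.sum_subset (Finset.subset_univ (Finset.univ.image (resPair (R := R))))
      fun r _ hr => dif_neg fun hg => hr (by
        obtain ⟨p, rfl⟩ := exists_resPair hg
        exact Finset.mem_image_of_mem _ (Finset.mem_univ p)),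
    Finset.sum_image resPair_injective.injOn, Fintype.sum_prod_type]
  rw [← ZMod.card_units_eq_totient R, ← nsmul_eq_mul, ← Finset.card_univ, ← Finset.sum_const]
  refine Finset.sum_congr rfl fun u _ => Finset.sum_congr rfl fun q _ => ?_
  refine slot_eq hinv q.out⁻¹ u⁻¹ ?_ ?_ τ <;>
    simp [resPair, Units.inv_mul_cancel_left]

/-- **The period as an integral against a weight.** The sum of the translates of the weight runs
over `Γ₀(R)` as a subgroup of `SL₂(ℤ)`, so both signs occur. -/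
theorem period_eq_integral (hΨ : Measurable Ψ)
    (hinv : ∀ γ ∈ Gamma0 R, ∀ τ : ℍ, Ψ (γ • τ) = Ψ τ) {B : ℝ} (hB : ∀ τ, ‖Ψ τ‖ ≤ B)
    {w : ℍ → ℝ} (hwm : Measurable w) (hw : ∀ τ, 0 ≤ w τ)
    (hsum : ∀ᵐ τ : ℍ, HasSum (fun h : Gamma0 R => w ((h : SL(2, ℤ)) • τ)) 1) :
    Integrable (fun τ => w τ • Ψ τ) ∧
      period R Ψ = 2 * (R.totient : ℂ) * ∫ τ, w τ • Ψ τ := by
  classical
  have := Fintype.ofFinite (SL(2, ℤ) ⧸ Gamma0 R)
  have : Countable SL(2, ℤ) := inferInstance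
  set F : ℍ → ℂ := fun τ => w τ • Ψ τ
  have hFm : Measurable F := hwm.smul hΨ
  set S : ℍ → ℂ := fun τ => ∑ q : SL(2, ℤ) ⧸ Gamma0 R, Ψ (q.out⁻¹ • τ)
  set n : ℕ := Fintype.card (SL(2, ℤ) ⧸ Gamma0 R)
  let e := Equiv.ofBijective _ (bijective_mul_out_inv (Gamma0 R))
  have hpt : ∀ᵐ τ : ℍ, (∑' g : SL(2, ℤ), F (g • τ) = S τ) ∧
      ∑' g : SL(2, ℤ), ‖F (g • τ)‖ₑ ≤ n * ENNReal.ofReal B := by
    have hall : ∀ᵐ τ : ℍ, ∀ q : SL(2, ℤ) ⧸ Gamma0 R,
        HasSum (fun h : Gamma0 R => w ((h : SL(2, ℤ)) • q.out⁻¹ • τ)) 1 :=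
      ae_all_iff.mpr fun q => (measurePreserving_sl q.out⁻¹).quasiMeasurePreserving.ae
        (p := fun σ => HasSum (fun h : Gamma0 R => w ((h : SL(2, ℤ)) • σ)) 1) hsum
    filter_upwards [hall] with τ hτ
    have hF : ∀ p, F (e p • τ) = w ((p.2 : SL(2, ℤ)) • p.1.out⁻¹ • τ) • Ψ (p.1.out⁻¹ • τ) :=
      fun p => by
        simp only [F, e, Equiv.ofBijective_apply, mul_smul]
        rw [hinv _ p.2.2]
    constructor
    · rw [← e.tsum_eq]
      simp only [hF]
      refine (hasSum_prod_of_fintype fun q => ?_).tsum_eq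
      simpa using (hτ q).smul_const (Ψ (q.out⁻¹ • τ))
    · rw [← e.tsum_eq]
      simp only [hF, enorm_smul, Real.enorm_of_nonneg (hw _)]
      rw [ENNReal.tsum_prod', tsum_fintype]
      refine (Finset.sum_le_card_nsmul _ _ (ENNReal.ofReal B) fun q _ => ?_).trans_eq
        (by rw [Finset.card_univ, nsmul_eq_mul])
      simp only []
      rw [ENNReal.tsum_mul_right, ← ENNReal.ofReal_tsum_of_nonneg (fun h => hw _) (hτ q).summable,
        (hτ q).tsum_eq, ENNReal.ofReal_one, one_mul, ← ofReal_norm]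
      exact ENNReal.ofReal_le_ofReal (hB _)
  have hfin : ∫⁻ τ, baseWeight τ * ∑' g : SL(2, ℤ), ‖F (g • τ)‖ₑ ≠ ∞ := by
    refine ne_top_of_le_ne_top ?_
      (lintegral_mono_ae (g := fun τ => baseWeight τ * (n * ENNReal.ofReal B))
        (hpt.mono fun τ h => mul_le_mul' le_rfl h.2))
    rw [lintegral_mul_const _ measurable_baseWeight]
    exact ENNReal.mul_ne_top lintegral_baseWeight_lt_top.ne
      (ENNReal.mul_ne_top (ENNReal.natCast_ne_top n) ENNReal.ofReal_ne_top)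
  obtain ⟨hint, -, heq⟩ := integral_eq_tiled hFm hfin
  refine ⟨hint, ?_⟩
  have hfdm : MeasurableSet (𝒟 : Set ℍ) := ModularGroup.isClosed_fd.measurableSet
  have hhalf : ∫ τ, F τ = (1 / 2 : ℝ) • ∫ τ in (𝒟 : Set ℍ), S τ := by
    rw [heq, ← integral_smul, ← integral_indicator hfdm]
    refine integral_congr_ae (hpt.mono fun τ h => ?_)
    simp only [fdWeight_eq_indicator, h.1]
    by_cases h' : τ ∈ (𝒟 : Set ℍ) <;> simp [h']
  rw [period, setIntegral_congr_fun hfdm fun τ _ => sum_slot hinv τ, integral_const_mul]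
  show _ = 2 * (R.totient : ℂ) * ∫ τ, F τ
  rw [hhalf, Complex.real_smul]
  push_cast
  ring

/-- A nonzero period gives a nonzero integral against a partition of unity. -/
theorem period_eq_integral_ne_zero (hΨ : Measurable Ψ)
    (hinv : ∀ γ ∈ Gamma0 R, ∀ τ : ℍ, Ψ (γ • τ) = Ψ τ) {B : ℝ} (hB : ∀ τ, ‖Ψ τ‖ ≤ B)
    {w : ℍ → ℝ} (hwm : Measurable w) (hw : ∀ τ, 0 ≤ w τ)
    (hsum : ∀ᵐ τ : ℍ, HasSum (fun h : Gamma0 R => w ((h : SL(2, ℤ)) • τ)) 1)
    (hP : period R Ψ ≠ 0) : ∫ τ, w τ • Ψ τ ≠ 0 := fun h =>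
  hP (by rw [(period_eq_integral hΨ hinv hB hwm hw hsum).2, h, mul_zero])

end Fermat.Agent.LT.Asai

end
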