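import Fermat.Agent.LT.Asai.Restrict.Horizontal
import Fermat.Agent.LT.Whittaker.TestVector

/-!
# The coefficients at the translated cosets and the projection to a residue class

With `x_j = j η / m` one has
`coef (shiftCoset R c u x_j) (n δ) = e (-n u j / m) * whit (dia (n δ û) • c)`,
so the sum over `j < m` against `e (j n₀ / m)` keeps exactly the `n` with `m ∣ n u - n₀`.
-/

set_option autoImplicit false

noncomputable section

open NumberField (InfinitePlace)

namespace Fermat.Agent.LT.Asai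

/-- `x ↦ e (k / m)`. -/
def rootExp (m : ℕ) (k : ℤ) : ℂ :=
  Complex.exp (2 * Real.pi * Complex.I * ((k : ℂ) / (m : ℂ)))

theorem rootExp_add (m : ℕ) (k l : ℤ) : rootExp m (k + l) = rootExp m k * rootExp m l := by
  rw [rootExp, rootExp, rootExp, ← Complex.exp_add]
  push_cast
  ring_nf

theorem rootExp_nsmul (m : ℕ) (k : ℤ) (j : ℕ) : rootExp m (j * k) = rootExp m k ^ j := by
  rw [rootExp, rootExp, ← Complex.exp_nat_mul]
  push_cast
  ring_nf

theorem rootExp_eq_one_iff {m : ℕ} (hm : 0 < m) (k : ℤ) : rootExp m k = 1 ↔ (m : ℤ) ∣ k := by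
  have hm' : (m : ℂ) ≠ 0 := Nat.cast_ne_zero.mpr hm.ne'
  rw [rootExp, Complex.exp_eq_one_iff]
  constructor
  · rintro ⟨n, hn⟩
    refine ⟨n, ?_⟩
    rw [mul_comm (2 * Real.pi * Complex.I : ℂ) _] at hn
    have h := mul_right_cancel₀ Complex.two_pi_I_ne_zero hn
    rw [div_eq_iff hm'] at h
    rw [mul_comm]
    exact_mod_cast h
  · rintro ⟨n, rfl⟩
    exact ⟨n, by push_cast; field_simp⟩

theorem sum_rootExp {m : ℕ} (hm : 0 < m) (k : ℤ) :
    ∑ j ∈ Finset.range m, rootExp m (j * k) = if (m : ℤ) ∣ k then (m : ℂ) else 0 := by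
  simp only [rootExp_nsmul]
  split_ifs with h
  · simp [(rootExp_eq_one_iff hm k).mpr h]
  · rw [geom_sum_eq (fun h1 => h ((rootExp_eq_one_iff hm k).mp h1)), ← rootExp_nsmul,
      (rootExp_eq_one_iff hm _).mpr (dvd_mul_right _ k), sub_self, zero_div]

variable {U : Level EisField} {φ : Y U → ℂ}

/-- The translation `j η / m`. -/
def shiftAt (m j : ℕ) : FinAdele EisField :=
  finIncl EisField (((j : ℚ) / m : ℚ) * eisEta)

theorem natCast_mul_shiftAt {m : ℕ} (hm : 0 < m) (j : ℕ) :
    (m : FinAdele EisField) * shiftAt m j = finIncl EisField ((j : EisField) * eisEta) := by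
  have hm' : (m : EisField) ≠ 0 := Nat.cast_ne_zero.mpr hm.ne'
  rw [shiftAt, ← map_natCast (finIncl EisField), ← map_mul]
  congr 1
  push_cast
  field_simp

/-- `m` times the shift `shiftAt m j` is integral. -/
theorem natCast_mul_shiftAt_mem {m : ℕ} (hm : 0 < m) (j : ℕ) :
    (m : FinAdele EisField) * shiftAt m j ∈ integralAdele EisField := by
  rw [natCast_mul_shiftAt hm, map_mul, map_natCast]
  exact mul_mem (natCast_mem _ j) (Reduction.finIncl_mem_of_isIntegral eisEtaInt)

/-- `shiftAt m j` is a shift of level `m ^ 2`. -/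
theorem isShift_shiftAt {M m : ℕ} (hm : 0 < m) (hM : M ∣ m) (j : ℕ) :
    IsShift M (m ^ 2) (shiftAt m j) := by
  refine ⟨pow_dvd_pow_of_dvd hM 2, ?_, ?_⟩
  · refine CongMod.of_dvd hM ⟨_, natCast_mul_shiftAt_mem hm j, ?_⟩
    push_cast; ring
  · rw [show ((m ^ 2 : ℕ) : FinAdele EisField) * shiftAt m j * shiftAt m j =
      ((m : FinAdele EisField) * shiftAt m j) * ((m : FinAdele EisField) * shiftAt m j) by
      push_cast; ring]
    exact mul_mem (natCast_mul_shiftAt_mem hm j) (natCast_mul_shiftAt_mem hm j)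

/-- The unit `n δ` of `EisField`. -/
def scaleDelta (n : ℤ) (hn : n ≠ 0) : EisFieldˣ :=
  Units.mk0 ((n : EisField) * eisDelta) (mul_ne_zero (Int.cast_ne_zero.mpr hn) eisDelta_ne_zero)

/-- `whit` at `n δ û`. -/
def unitWhit (R : ℕ) [NeZero R] (φ : Y U → ℂ) (c : GLFin EisField ⧸ U.toSubgroup)
    (u : (ZMod R)ˣ) (n : ℤ) : ℂ :=
  if hn : n = 0 then 0
  else Whittaker.whit φ
    (dia (Units.map (finIncl EisField).toMonoidHom (scaleDelta n hn) * hatUnit EisField R u) • c)

theorem coef_shiftCoset (hφ : Whittaker.IsCuspEigen φ) (c : GLFin EisField ⧸ U.toSubgroup)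
    {m : ℕ} [NeZero (m ^ 2)] (hm : 0 < m) (u : (ZMod (m ^ 2))ˣ) (j : ℕ) (n : ℤ) :
    Whittaker.coef φ (shiftCoset (m ^ 2) c u (shiftAt m j)) ((n : EisField) * eisDelta) =
      rootExp m (-(n * ((u : ZMod (m ^ 2)).val : ℤ) * j)) * unitWhit (m ^ 2) φ c u n := by
  rcases eq_or_ne n 0 with rfl | hn
  · rw [Int.cast_zero, zero_mul, (Whittaker.isExpansion_coef hφ _).1, unitWhit, dif_pos rfl,
      mul_zero]
  rw [unitWhit, dif_neg hn,
    show (n : EisField) * eisDelta = ((scaleDelta n hn : EisFieldˣ) : EisField) from rfl,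
    Whittaker.coef_eq_whit hφ, shiftCoset, ← mul_smul, Whittaker.glIncl_dia, ← mul_assoc,
    ← Whittaker.dia_mul, Whittaker.whit_dia_unip_smul hφ]
  congr 1
  set ū : ℤ := ((u : ZMod (m ^ 2)).val : ℤ)
  obtain ⟨w, hw, hdiff⟩ := congMod_hatUnit (F := EisField) (m ^ 2) u (a := ū)
    (by rw [Int.cast_natCast, ZMod.natCast_zmod_val])
  have hint : finIncl EisField (-eisZeta) ∈ integralAdele EisField :=
    Reduction.finIncl_mem_of_isIntegral (⟨-eisZeta, isIntegral_eisZeta.neg⟩ :
      NumberField.RingOfIntegers EisField)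
  have hm' : (m : EisField) ≠ 0 := Nat.cast_ne_zero.mpr hm.ne'
  have hcomp : finIncl EisField ((n : EisField) * eisDelta) * (hatUnit EisField (m ^ 2) u :
      FinAdele EisField) * shiftAt m j =
      finIncl EisField ((((n * ū * j : ℤ) : ℚ) / m : ℚ) * -eisZeta) +
        finIncl EisField ((n : EisField) * j * m * -eisZeta) * w := by
    rw [sub_eq_iff_eq_add'] at hdiff
    have e1 : finIncl EisField ((n : EisField) * eisDelta) * (ū : FinAdele EisField) * shiftAt m j
        = finIncl EisField ((((n * ū * j : ℤ) : ℚ) / m : ℚ) * -eisZeta) := by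
      rw [shiftAt, ← map_intCast (finIncl EisField), ← map_mul, ← map_mul,
        ← eisDelta_mul_eisEta]
      congr 1
      push_cast
      ring
    have e2 : finIncl EisField ((n : EisField) * eisDelta) * ((m ^ 2 : ℕ) : FinAdele EisField) *
        shiftAt m j = finIncl EisField ((n : EisField) * j * m * -eisZeta) := by
      rw [shiftAt, ← map_natCast (finIncl EisField), ← map_mul, ← map_mul, ← eisDelta_mul_eisEta]
      congr 1
      push_cast
      field_simp
    rw [hdiff, ← e1, ← e2]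
    ring
  rw [Units.val_mul]
  show Whittaker.psiFin EisField (finIncl EisField ((n : EisField) * eisDelta) * _ * _) = _
  rw [hcomp, Whittaker.psiFin_add, Whittaker.psiFin_finIncl,
    Whittaker.psiFin_of_mem, mul_one, Whittaker.psiGlobal, trace_ratCast_mul, map_neg,
    trace_eisZeta, neg_neg, mul_one, rootExp]
  · congr 1
    push_cast
    ring
  · refine mul_mem ?_ hw
    rw [map_mul, map_mul, map_mul, map_intCast, map_natCast, map_natCast]
    exact mul_mem (mul_mem (mul_mem (intCast_mem _ _) (natCast_mem _ _)) (natCast_mem _ _)) hint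

/-- The projection to a residue class. -/
theorem sum_coef_shiftCoset (hφ : Whittaker.IsCuspEigen φ) (c : GLFin EisField ⧸ U.toSubgroup)
    {m : ℕ} [NeZero (m ^ 2)] (hm : 0 < m) (n₀ : ℕ) (u : (ZMod (m ^ 2))ˣ) (n : ℤ) :
    ∑ j ∈ Finset.range m, rootExp m (j * n₀) *
        Whittaker.coef φ (shiftCoset (m ^ 2) c u (shiftAt m j)) ((n : EisField) * eisDelta) =
      if (m : ℤ) ∣ (n₀ : ℤ) - n * ((u : ZMod (m ^ 2)).val : ℤ) then
        (m : ℂ) * unitWhit (m ^ 2) φ c u n else 0 := by
  simp only [coef_shiftCoset hφ c hm, ← mul_assoc, ← rootExp_add]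
  rw [← Finset.sum_mul, Finset.sum_congr rfl fun (j : ℕ) _ => congrArg (rootExp m)
    (show (j : ℤ) * n₀ + -(n * ((u : ZMod (m ^ 2)).val : ℤ) * j) =
      j * ((n₀ : ℤ) - n * ((u : ZMod (m ^ 2)).val : ℤ)) by ring), sum_rootExp hm, ite_mul, zero_mul]

end Fermat.Agent.LT.Asai

end
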