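import Fermat.Agent.LT.Asai.Restrict.Projection
import Fermat.Agent.LT.Asai.Restrict.Norm
import Fermat.Agent.LT.Whittaker.HeckeList

/-!
# The Whittaker values on the residue class of one

For `n u ≡ 1 (mod M)` the value at `n₀ n δ û` is the product of the Hecke coefficients at the places
dividing `n` times the base coefficient.
-/

set_option autoImplicit false

noncomputable section

open NumberField WithZero Fermat.Agent.LT.Places

namespace Fermat.Agent.LT.Asai

variable {F : Type*} [Field F] [NumberField F]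

omit [NumberField F] in
/-- The matrix of `dia t`. -/
theorem dia_entries (t : (FinAdele F)ˣ) :
    (dia t : GLFin F).val = !![(t : FinAdele F), 0; 0, 1] := rfl

omit [NumberField F] in
/-- The matrix of the inverse of `dia t`. -/
theorem dia_inv_entries (t : (FinAdele F)ˣ) :
    ((dia t : GLFin F)⁻¹).val = !![((t⁻¹ : (FinAdele F)ˣ) : FinAdele F), 0; 0, 1] := rfl

/-- A unit idele congruent to one gives a fixing element. -/
theorem isFixing_dia {M : ℕ} {t : (FinAdele F)ˣ} (h : (t : FinAdele F) ∈ integralAdele F)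
    (h' : ((t⁻¹ : (FinAdele F)ˣ) : FinAdele F) ∈ integralAdele F)
    (hc : CongMod M ((t : FinAdele F) - 1)) : IsFixing M (dia t : GLFin F) := by
  have hz : ∀ n : ℕ, CongMod n (0 : FinAdele F) := fun n => ⟨0, zero_mem _, by simp⟩
  refine ⟨fun i j => ?_, fun i j => ?_, ?_, ?_, ?_⟩
  · rw [dia_entries]
    fin_cases i <;> fin_cases j <;> simp [h, zero_mem, one_mem]
  · rw [dia_inv_entries]
    fin_cases i <;> fin_cases j <;> simp [h', zero_mem, one_mem]
  · simpa [dia_entries] using hc
  · simpa [dia_entries] using hz M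
  · simpa [dia_entries] using hz (M ^ 2)

/-- Integral unipotents are fixing elements. -/
theorem isFixing_unip {M : ℕ} {v : FinAdele F} (hv : v ∈ integralAdele F) :
    IsFixing M (unip v : GLFin F) := by
  have hz : ∀ n : ℕ, CongMod n (0 : FinAdele F) := fun n => ⟨0, zero_mem _, by simp⟩
  have hi : ((unip v : GLFin F)⁻¹) = unip (-v) := (AddChar.map_neg_eq_inv _ v).symm
  refine ⟨fun i j => ?_, fun i j => ?_, ?_, ?_, ?_⟩
  · fin_cases i <;> fin_cases j <;> simp [unip, hv, zero_mem, one_mem]
  · rw [hi]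
    fin_cases i <;> fin_cases j <;> simp [unip, neg_mem hv, zero_mem, one_mem]
  · simpa [unip] using hz M
  · simpa [unip] using hz M
  · simpa [unip] using hz (M ^ 2)

/-- The translated cosets are fixed by the integral unipotents. -/
theorem unip_smul_shiftCoset {U : Level F} {M R : ℕ} [NeZero R] {c : GLFin F ⧸ U.toSubgroup}
    (hfix : ∀ h : GLFin F, IsFixing M h → h • c = c) (u : (ZMod R)ˣ) (x : FinAdele F)
    {v : FinAdele F} (hv : v ∈ integralAdele F) :
    unip v • shiftCoset R c u x = shiftCoset R c u x := by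
  set s := hatUnit F R u
  have hcomm : unip v * (dia s * unip x) =
      (dia s * unip x) * unip (((s⁻¹ : (FinAdele F)ˣ) : FinAdele F) * v) := by
    have h2 : ∀ a b : FinAdele F, (unip (a + b) : GLFin F) = unip a * unip b := fun a b =>
      AddChar.map_add_eq_mul _ a b
    have hA : unip v * (dia s * unip x) = unip (v + (s : FinAdele F) * x) * dia s := by
      rw [Whittaker.dia_mul_unip, ← mul_assoc, ← h2]
    have hB : ∀ w : FinAdele F, dia s * unip x * unip w =
        unip ((s : FinAdele F) * (x + w)) * dia s := fun w => by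
      rw [mul_assoc, ← h2, Whittaker.dia_mul_unip]
    rw [hA, hB, mul_add, ← mul_assoc, Units.mul_inv, one_mul, add_comm]
  rw [shiftCoset, ← mul_smul, hcomm, mul_smul,
    hfix _ (isFixing_unip (Subring.mul_mem _ (hatUnit_inv_mem R u) hv))]

/-- The lift of a unit modulo `R` has trivial valuation at every place. -/
theorem placeVal_hatUnit (R : ℕ) [NeZero R] (u : (ZMod R)ˣ) (v : FinPlace F) :
    placeVal v (hatUnit F R u : FinAdele F) = 1 :=
  (mem_integralUnits_iff.1 ⟨hatUnit_mem R u, hatUnit_inv_mem R u⟩) v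

/-- Congruence modulo `M` from the components. -/
theorem congMod_of_placeVal {M : ℕ} (hM : 0 < M) {x : FinAdele F} (hx : x ∈ integralAdele F)
    (h : ∀ v : FinPlace F, (M : 𝓞 F) ∈ v.asIdeal → placeVal v x ≤ v.valuation F (M : F)) :
    CongMod M x := by
  refine exists_mul_of_placeVal_le hM hx fun v => ?_
  by_cases hv : (M : 𝓞 F) ∈ v.asIdeal
  · exact h v hv
  · rw [valuation_eq_exp_placeExp v hM, (placeExp_eq_zero_iff v hM).mpr hv]
    simpa using placeVal_le_one v hx

/-- **The Hecke product at a unit class.** -/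
theorem whit_unit_class [IsTotallyComplex F] {N : ℕ} {U : Level F} {φ : Y U → ℂ}
    (hφ : Whittaker.IsCuspEigen φ) (hN : 0 < N) {lam : Ideal (𝓞 F) → ℂ}
    (hlam : IsHeckeEigenSystem N φ lam) {M : ℕ} (hM : 0 < M) (hNM : N ∣ M)
    (hgood : ∀ v : FinPlace F, (M : 𝓞 F) ∉ v.asIdeal → IsGoodAt U v)
    (hdiff : ∀ v : FinPlace F, (M : 𝓞 F) ∉ v.asIdeal → ¬ differentIdeal ℤ (𝓞 F) ≤ v.asIdeal)
    (g : GLFin F) (hg : ∀ v : FinPlace F, (M : 𝓞 F) ∉ v.asIdeal → glPlace v g ∈ intGroup v)
    (hfix : ∀ h : GLFin F, IsFixing M h →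
      h • (g : GLFin F ⧸ U.toSubgroup) = (g : GLFin F ⧸ U.toSubgroup))
    (α₀ : (FinAdele F)ˣ)
    (hα₀ : ∀ v : FinPlace F, (M : 𝓞 F) ∉ v.asIdeal → placeVal v (α₀ : FinAdele F) = 1)
    (t₀ : (FinAdele F)ˣ) (n : ℕ) (hn : 0 < n) (hnM : n.Coprime M)
    (hval : ∀ v : FinPlace F, placeVal v (t₀ : FinAdele F) = v.valuation F (n : F))
    (hcong : CongMod M ((t₀ : FinAdele F) - 1)) :
    Whittaker.whit φ (dia (α₀ * t₀) • (g : GLFin F ⧸ U.toSubgroup)) =
      (∏ v ∈ (finite_placeExp (F := F) hn).toFinset,
        Whittaker.heckeCoeff (Ideal.absNorm v.asIdeal) (lam v.asIdeal) (placeExp v n)) *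
          Whittaker.whit φ (dia α₀ • (g : GLFin F ⧸ U.toSubgroup)) := by
  classical
  set S := (finite_placeExp (F := F) hn).toFinset with hS
  have hSM : ∀ v ∈ S, (M : 𝓞 F) ∉ v.asIdeal := by
    intro v hv hMv
    rw [hS, Set.Finite.mem_toFinset, Set.mem_ofPred_eq] at hv
    rcases placeExp_coprime v hn hM hnM with h | h
    · exact hv h
    · exact (placeExp_eq_zero_iff v hM).mp h hMv
  set P : (FinAdele F)ˣ := ∏ v ∈ S, piUnit v ^ placeExp v n with hP
  have hPcomp : ∀ w : FinPlace F, (M : 𝓞 F) ∈ w.asIdeal →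
      toPlace w (P : FinAdele F) = 1 := fun w hw => by
    rw [hP, Units.coe_prod, map_prod, Finset.prod_eq_one fun v hv => ?_]
    rw [Units.val_pow_eq_pow_val, map_pow,
      toPlace_piUnit_ne (fun h => hSM v hv (by rw [← h]; exact hw)), one_pow]
  have hPval : ∀ w : FinPlace F, placeVal w (P : FinAdele F) = w.valuation F (n : F) := fun w => by
    rw [hP, Units.coe_prod, placeVal, map_prod, map_prod, valuation_eq_exp_placeExp w hn]
    rcases em (w ∈ S) with hw | hw
    · rw [Finset.prod_eq_single w (fun v _ hne => ?_) fun h => absurd hw h]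
      · rw [Units.val_pow_eq_pow_val, map_pow, map_pow,
          show Valued.v (toPlace w (piUnit w : FinAdele F)) = exp (-1 : ℤ) from
            placeVal_piUnit_same w,
          ← exp_nsmul]
        simp
      · rw [Units.val_pow_eq_pow_val, map_pow, map_pow,
          show Valued.v (toPlace w (piUnit v : FinAdele F)) = 1 from placeVal_piUnit_ne hne.symm,
          one_pow]
    · rw [Finset.prod_eq_one fun v hv => ?_]
      · have h0 : placeExp w n = 0 := by
          by_contra h
          exact hw (by rw [hS, Set.Finite.mem_toFinset]; exact h)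
        simp [h0]
      · rw [Units.val_pow_eq_pow_val, map_pow, map_pow,
          show Valued.v (toPlace w (piUnit v : FinAdele F)) = 1 from
            placeVal_piUnit_ne (fun h => hw (by rw [h]; exact hv)), one_pow]
  set t : (FinAdele F)ˣ := P⁻¹ * t₀ with ht
  have htval : ∀ w : FinPlace F, placeVal w (t : FinAdele F) = 1 := fun w => by
    rw [ht, Units.val_mul, placeVal_mul, placeVal_units_inv, hPval, hval, inv_mul_cancel₀]
    rw [valuation_eq_exp_placeExp w hn]
    exact exp_ne_zero
  have htint := mem_integralUnits_iff.2 htval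
  have htc : CongMod M ((t : FinAdele F) - 1) := by
    refine congMod_of_placeVal hM (sub_mem htint.1 (one_mem _)) fun w hw => ?_
    obtain ⟨a, ha, hab⟩ := hcong
    have : toPlace w ((t : FinAdele F) - 1) = toPlace w ((t₀ : FinAdele F) - 1) := by
      rw [map_sub, map_sub, ht, Units.val_mul, map_mul, toPlace_units_inv, hPcomp w hw, inv_one,
        one_mul]
    rw [placeVal, this, hab, map_mul, map_mul]
    refine le_trans (mul_le_mul' (le_of_eq ?_) (placeVal_le_one w ha)) (le_of_eq (mul_one _))
    exact (placeVal_natCast w M)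
  have hsplit : dia (α₀ * t₀) • (g : GLFin F ⧸ U.toSubgroup) =
      dia (α₀ * P) • (g : GLFin F ⧸ U.toSubgroup) := by
    rw [show α₀ * t₀ = α₀ * P * t by rw [ht, mul_assoc, mul_inv_cancel_left],
      Whittaker.dia_mul, mul_smul, hfix _ (isFixing_dia htint.1 htint.2 htc)]
  rw [hsplit, hP]
  exact Whittaker.whit_prod_pow_eigenSystem hφ hN hlam S
    (fun v hv h => hSM v hv (by
      obtain ⟨k, rfl⟩ := hNM
      rw [Nat.cast_mul]
      exact Ideal.mul_mem_right _ _ h))
    (fun v hv => hgood v (hSM v hv)) (fun v hv => hdiff v (hSM v hv)) g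
    (fun v hv => hg v (hSM v hv)) α₀ (fun v hv => hα₀ v (hSM v hv)) fun v => placeExp v n

end Fermat.Agent.LT.Asai

end
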